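import Fermat.Agent.S48.End.Defs

/-!
# S48-END, file `Fin`: `2 × 2` matrices of finite order over `ℚ̄`
-/

set_option autoImplicit false

namespace Fermat.Agent.S48.End

/-- the (trace, determinant) of the matrices of order dividing `n` -/
def tdSet (n : ℕ) : Set (Qb × Qb) :=
  {y | ∃ α β : Qb, α ^ n = 1 ∧ β ^ n = 1 ∧ y = (α + β, α * β)}

/-- [image of the finite set `{α | α^n = 1}²` (`Polynomial.nthRoots`, or `rootsOfUnity` finite).] -/
theorem tdSet_finite {n : ℕ} (hn : 0 < n) : (tdSet n).Finite := by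
  classical
  set S : Finset Qb := (Polynomial.nthRoots n (1 : Qb)).toFinset with hS
  refine ((S ×ˢ S).image fun x : Qb × Qb => (x.1 + x.2, x.1 * x.2)).finite_toSet.subset ?_
  rintro y ⟨α, β, hα, hβ, rfl⟩
  refine Finset.mem_coe.2 (Finset.mem_image.2 ⟨(α, β), Finset.mem_product.2 ⟨?_, ?_⟩, rfl⟩)
  · exact Multiset.mem_toFinset.2 ((Polynomial.mem_nthRoots hn).2 hα)
  · exact Multiset.mem_toFinset.2 ((Polynomial.mem_nthRoots hn).2 hβ)

theorem isIntegral_of_mem_tdSet {n : ℕ} (hn : 0 < n) {y : Qb × Qb} (hy : y ∈ tdSet n) :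
    IsIntegral ℤ y.1 ∧ IsIntegral ℤ y.2 := by
  obtain ⟨α, β, hα, hβ, rfl⟩ := hy
  have h1 : IsIntegral ℤ α := IsIntegral.of_pow hn (by rw [hα]; exact isIntegral_one)
  have h2 : IsIntegral ℤ β := IsIntegral.of_pow hn (by rw [hβ]; exact isIntegral_one)
  exact ⟨h1.add h2, h1.mul h2⟩

/-- a root of the characteristic polynomial of a matrix of order dividing `n` is an `n`-th root of
unity. -/
theorem Fin_eig {n : ℕ} (M : M2 Qb) (h : M ^ n = 1) (α : Qb)
    (hα : α ^ 2 - M.trace * α + M.det = 0) : α ^ n = 1 := by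
  have hdet : (M - α • (1 : M2 Qb)).det = 0 := by
    rw [Matrix.det_fin_two]
    rw [Matrix.trace_fin_two, Matrix.det_fin_two] at hα
    simp only [Matrix.sub_apply, Matrix.smul_apply, Matrix.one_apply_eq, smul_eq_mul, mul_one,
      Matrix.one_apply_ne (show (0 : Fin 2) ≠ 1 by decide),
      Matrix.one_apply_ne (show (1 : Fin 2) ≠ 0 by decide), mul_zero, sub_zero]
    linear_combination hα
  obtain ⟨v, hv0, hv⟩ := Matrix.exists_mulVec_eq_zero_iff.2 hdet
  have hMv : M.mulVec v = α • v := by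
    rw [Matrix.sub_mulVec, Matrix.smul_mulVec, Matrix.one_mulVec] at hv
    exact sub_eq_zero.1 hv
  have hpow : ∀ k : ℕ, (M ^ k).mulVec v = α ^ k • v := by
    intro k
    induction k with
    | zero => simp
    | succ k ih =>
      rw [pow_succ, ← Matrix.mulVec_mulVec, hMv, Matrix.mulVec_smul, ih, smul_smul, pow_succ,
        mul_comm]
  have h1 := hpow n
  rw [h, Matrix.one_mulVec] at h1
  have h2 : (α ^ n - 1) • v = 0 := by rw [sub_smul, one_smul, ← h1, sub_self]
  exact sub_eq_zero.1 ((smul_eq_zero.1 h2).resolve_right hv0)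

/-- [`X² - tr X + det = (X - α)(X - β)` (`IsAlgClosed`: a root `α`, `β := tr - α`).  `α` is an eigenvalue: `det (M - α) = 0` so there is `v ≠ 0` with `M v = α v`
(`Matrix.exists_mulVec_eq_zero_iff`), `M^n v = α^n v`, so `α^n = 1`; same for `β`.] -/
theorem td_mem_tdSet {n : ℕ} (M : M2 Qb) (h : M ^ n = 1) : (M.trace, M.det) ∈ tdSet n := by
  obtain ⟨s, hs⟩ := IsAlgClosed.exists_pow_nat_eq (M.trace ^ 2 - 4 * M.det) (n := 2) two_pos
  refine ⟨(M.trace + s) / 2, (M.trace - s) / 2, Fin_eig M h _ ?_, Fin_eig M h _ ?_, ?_⟩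
  · field_simp
    linear_combination hs
  · field_simp
    linear_combination hs
  · refine Prod.ext ?_ ?_
    · show M.trace = (M.trace + s) / 2 + (M.trace - s) / 2
      ring
    · show M.det = (M.trace + s) / 2 * ((M.trace - s) / 2)
      field_simp
      linear_combination hs

/-- [Cayley-Hamilton (`Matrix.aeval_self_charpoly`, `Matrix.charpoly_fin_two`): `(M - 1)² = 0`; `M = 1 + E`, `E² = 0`, `M^n = 1 + n E`, characteristic `0`.] -/
theorem eq_one_of_td {n : ℕ} (hn : 0 < n) (M : M2 Qb) (h : M ^ n = 1) (ht : M.trace = 2)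
    (hd : M.det = 1) : M = 1 := by
  set E : M2 Qb := M - 1 with hE
  have hCH : M * M - M.trace • M + M.det • (1 : M2 Qb) = 0 := by
    ext i j
    fin_cases i <;> fin_cases j <;>
      simp [Matrix.mul_apply, Fin.sum_univ_two, Matrix.trace_fin_two, Matrix.det_fin_two] <;> ring
  rw [ht, hd, one_smul, two_smul] at hCH
  have hEE : E * E = 0 := by
    rw [hE, sub_mul, mul_sub, mul_sub, mul_one, one_mul, mul_one]
    rw [← hCH]
    abel
  have hM : M = 1 + E := by rw [hE]; abel
  have hpow : ∀ k : ℕ, M ^ k = 1 + (k : Qb) • E := by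
    intro k
    induction k with
    | zero => simp
    | succ k ih =>
      have h5 : (1 + (k : Qb) • E) * (1 + E) = 1 + ((k + 1 : ℕ) : Qb) • E := by
        rw [add_mul, mul_add, mul_add, one_mul, mul_one, one_mul, Matrix.smul_mul, hEE, smul_zero,
          add_zero, Nat.cast_succ, add_smul, one_smul]
        abel
      rw [pow_succ, ih, ← h5, ← hM]
  have h1 := hpow n
  rw [h] at h1
  have h2 : (n : Qb) • E = 0 := by
    have := h1.symm
    rwa [add_eq_left] at this
  have h3 : E = 0 := (smul_eq_zero.1 h2).resolve_left (Nat.cast_ne_zero.2 hn.ne')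
  rw [hM, h3, add_zero]

/-- `2 det = tr² - tr (M²)` -/
theorem two_mul_det {R : Type*} [CommRing R] (M : M2 R) :
    2 * M.det = M.trace ^ 2 - (M * M).trace := by
  simp only [Matrix.det_fin_two, Matrix.trace_fin_two, Matrix.mul_apply, Fin.sum_univ_two]
  ring

/-- `tr (M⁻¹) det M = tr M` in the form without inverses: if `M M' = 1` then `tr M' * det M = tr M` -/
theorem trace_inv_mul_det {R : Type*} [CommRing R] (M M' : M2 R) (h : M * M' = 1) :
    M'.trace * M.det = M.trace := by
  have h1 : M.det • M' = M.adjugate := by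
    calc M.det • M' = (M.adjugate * M) * M' := by
          rw [Matrix.adjugate_mul, Matrix.smul_mul, one_mul]
      _ = M.adjugate := by rw [mul_assoc, h, mul_one]
  have h2 := congrArg Matrix.trace h1
  have h3 : M.adjugate.trace = M.trace := by
    rw [Matrix.adjugate_fin_two, Matrix.trace_fin_two, Matrix.trace_fin_two]
    simp [add_comm]
  rw [Matrix.trace_smul, h3, smul_eq_mul] at h2
  rw [mul_comm]
  exact h2

end Fermat.Agent.S48.End
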