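import Fermat.Agent.S48.End.Defs

/-!
# S48-END, file `Line`: reducible two dimensional representations
-/

set_option autoImplicit false

open scoped MatrixGroups
open Matrix

namespace Fermat.Agent.S48.End

/-- [`IsSimpleOrder (Subrepresentation _)`: `Nontrivial` (`⊥ ≠ ⊤` because `Fin 2 → k` is nontrivial); for a subrepresentation `U`, `finrank U.toSubmodule ∈ {0, 1, 2}`:
`0` gives `⊥`, `2` gives `⊤` (`Submodule.eq_top_of_finrank_eq`), `1` gives `U = span {v}` (`finrank_eq_one_iff'`), stable, so `ρ g v = c v` (`Submodule.mem_span_singleton`,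
`Deformation.matrixRepresentation_apply`, `Matrix.mulVecLin_apply`).] -/
theorem irreducible_of_no_line {G k : Type} [Group G] [Field k] (ρ : G →* GL (Fin 2) k)
    (h : ∀ v : Fin 2 → k, v ≠ 0 →
      ¬ ∀ g : G, ∃ c : k, ((ρ g : GL (Fin 2) k) : M2 k) *ᵥ v = c • v) :
    (Deformation.matrixRepresentation ρ).IsIrreducible := by
  have : Nontrivial (Subrepresentation (Deformation.matrixRepresentation ρ)) := by
    refine ⟨⟨⊥, ⊤, fun e => ?_⟩⟩
    have e' : (⊥ : Submodule k (Fin 2 → k)) = ⊤ := congrArg Subrepresentation.toSubmodule e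
    exact bot_ne_top e'
  refine ⟨fun U => ?_⟩
  by_cases hbot : U.toSubmodule = ⊥
  · left
    exact Subrepresentation.toSubmodule_injective hbot
  right
  apply Subrepresentation.toSubmodule_injective
  show U.toSubmodule = ⊤
  obtain ⟨v, hvU, hv0⟩ := U.toSubmodule.exists_mem_ne_zero_of_ne_bot hbot
  have h1 := h v hv0
  push Not at h1
  obtain ⟨g, hg⟩ := h1
  have hgU : ((ρ g : GL (Fin 2) k) : M2 k) *ᵥ v ∈ U.toSubmodule := by
    have := U.apply_mem_toSubmodule g hvU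
    rwa [Deformation.matrixRepresentation_apply, Matrix.mulVecLin_apply] at this
  have hli : LinearIndependent k ![v, ((ρ g : GL (Fin 2) k) : M2 k) *ᵥ v] :=
    (LinearIndependent.pair_iff' hv0).2 fun a e => hg a e.symm
  have htop := hli.span_eq_top_of_card_eq_finrank' (by simp)
  rw [eq_top_iff, ← htop, Submodule.span_le]
  rintro _ ⟨i, rfl⟩
  fin_cases i
  · exact hvU
  · exact hgU

/-- [`χ₁ g :=` the eigenvalue `c` (unique since `v ≠ 0`), multiplicative (`Matrix.mulVec_mulVec`), `χ₁ 1 = 1`: `MonoidHom.toHomUnits`.  `χ₂ g := det (ρ g) / χ₁ g` (`Matrix.GeneralLinearGroup.det`).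
Cayley-Hamilton (`Matrix.aeval_self_charpoly`, `Matrix.charpoly_fin_two`; or directly by entries) applied to `v`: `(c² - tr c + det) v = 0`, so `tr = c + det / c`.] -/
theorem exists_chars_of_line {G k : Type} [Group G] [Field k] (ρ : G →* GL (Fin 2) k)
    (v : Fin 2 → k) (hv : v ≠ 0)
    (h : ∀ g : G, ∃ c : k, ((ρ g : GL (Fin 2) k) : M2 k) *ᵥ v = c • v) :
    ∃ χ₁ χ₂ : G →* kˣ, ∀ g,
      Matrix.trace ((ρ g : GL (Fin 2) k) : M2 k) = ((χ₁ g : kˣ) : k) + ((χ₂ g : kˣ) : k) := by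
  choose c hc using h
  have huniq : ∀ a b : k, a • v = b • v → a = b := fun a b e => smul_left_injective k hv e
  have hone : c 1 = 1 := by
    apply huniq
    rw [← hc 1, map_one, Units.val_one, Matrix.one_mulVec, one_smul]
  have hmul : ∀ g g' : G, c (g * g') = c g * c g' := by
    intro g g'
    apply huniq
    rw [← hc (g * g'), map_mul, Units.val_mul, ← Matrix.mulVec_mulVec, hc g', Matrix.mulVec_smul,
      hc g, smul_smul, mul_comm]
  let c' : G →* k := { toFun := c, map_one' := hone, map_mul' := hmul }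
  refine ⟨c'.toHomUnits, (Matrix.GeneralLinearGroup.det.comp ρ) / c'.toHomUnits, fun g => ?_⟩
  have hc0 : c g ≠ 0 := by
    have : ((c'.toHomUnits g : kˣ) : k) = c g := MonoidHom.coe_toHomUnits c' g
    rw [← this]
    exact Units.ne_zero _
  rw [MonoidHom.div_apply, Units.val_div_eq_div_val, MonoidHom.coe_toHomUnits, MonoidHom.comp_apply,
    Matrix.GeneralLinearGroup.val_det_apply]
  show _ = c g + _ / c g
  have h0 := congrFun (hc g) 0
  have h1 := congrFun (hc g) 1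
  simp only [Matrix.mulVec, dotProduct, Fin.sum_univ_two, Pi.smul_apply, smul_eq_mul] at h0 h1
  rw [Matrix.trace_fin_two, Matrix.det_fin_two]
  generalize ((ρ g : GL (Fin 2) k) : M2 k) = M at h0 h1 ⊢
  have hE : ∀ i, (c g ^ 2 - (M 0 0 + M 1 1) * c g + (M 0 0 * M 1 1 - M 0 1 * M 1 0)) * v i = 0 := by
    intro i
    fin_cases i
    · show _ * v 0 = 0
      linear_combination (M 1 1 - c g) * h0 - M 0 1 * h1
    · show _ * v 1 = 0
      linear_combination (M 0 0 - c g) * h1 - M 1 0 * h0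
  have hE0 : c g ^ 2 - (M 0 0 + M 1 1) * c g + (M 0 0 * M 1 1 - M 0 1 * M 1 0) = 0 := by
    by_contra hne
    apply hv
    funext i
    exact (mul_eq_zero.1 (hE i)).resolve_left hne
  field_simp
  linear_combination -hE0

/-- [`‖χ g‖ = 1` (`norm_eq_one_of_pow_eq_one`, `pow_card_eq_one`).  `‖x + y‖² = ‖x‖² + ‖y‖² + 2 Re (x conj y)` (`Complex.sq_norm`, `Complex.normSq_add`), `conj y = y⁻¹` (`Complex.inv_def`, `‖y‖ = 1`).
`∑_g (χ₁ χ₂⁻¹)(g) = card G` or `0` (`sum_hom_units`), real part `≥ 0`.] -/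
theorem two_mul_card_le_sum {G : Type} [Group G] [Fintype G] (χ₁ χ₂ : G →* ℂˣ) :
    2 * (Fintype.card G : ℝ) ≤ ∑ g, ‖((χ₁ g : ℂˣ) : ℂ) + ((χ₂ g : ℂˣ) : ℂ)‖ ^ 2 := by
  classical
  have hnorm : ∀ (χ : G →* ℂˣ) (g : G), ‖((χ g : ℂˣ) : ℂ)‖ = 1 := by
    intro χ g
    refine Complex.norm_eq_one_of_pow_eq_one (n := Fintype.card G) ?_ Fintype.card_ne_zero
    rw [← Units.val_pow_eq_pow_val, ← map_pow, pow_card_eq_one, map_one, Units.val_one]
  let ψ : G →* ℂ := (Units.coeHom ℂ).comp (χ₁ / χ₂)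
  have hterm : ∀ g, ‖((χ₁ g : ℂˣ) : ℂ) + ((χ₂ g : ℂˣ) : ℂ)‖ ^ 2 = 2 + 2 * (ψ g).re := by
    intro g
    have e : ψ g = ((χ₁ g : ℂˣ) : ℂ) * (starRingEnd ℂ) ((χ₂ g : ℂˣ) : ℂ) := by
      show (((χ₁ / χ₂) g : ℂˣ) : ℂ) = _
      rw [MonoidHom.div_apply, Units.val_div_eq_div_val, div_eq_mul_inv, Complex.inv_def,
        Complex.normSq_eq_norm_sq, hnorm]
      simp
    rw [Complex.sq_norm, Complex.normSq_add, Complex.normSq_eq_norm_sq, Complex.normSq_eq_norm_sq,
      hnorm, hnorm, e]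
    ring
  have hsum : 0 ≤ (∑ g, ψ g).re := by
    rw [sum_hom_units]
    split_ifs <;> simp
  calc 2 * (Fintype.card G : ℝ) ≤ 2 * (Fintype.card G : ℝ) + 2 * (∑ g, ψ g).re := by linarith
    _ = ∑ g, (2 + 2 * (ψ g).re) := by
        rw [Finset.sum_add_distrib, ← Finset.mul_sum, Complex.re_sum, Finset.sum_const,
          Finset.card_univ, nsmul_eq_mul]
        ring
    _ = ∑ g, ‖((χ₁ g : ℂˣ) : ℂ) + ((χ₂ g : ℂˣ) : ℂ)‖ ^ 2 :=
        Finset.sum_congr rfl fun g _ => (hterm g).symm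

end Fermat.Agent.S48.End
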