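import Fermat.Agent.S48.End.ChebSum
import Fermat.Agent.S48.End.Line
import Fermat.Agent.S48.End.Fin

/-!
# S48-END, file `Irr`: Rankin's estimate implies irreducibility
-/

set_option autoImplicit false

open scoped MatrixGroups
open Matrix

namespace Fermat.Agent.S48.End

theorem irreducible_of_rankin (cheb : ChebStatement) (ρ : GQ →* GL (Fin 2) ℂ)
    (hlev : GaloisFactorsThroughFiniteLevel ρ) (S : Finset ℕ) (a : ℕ → ℂ)
    (hfrob : ∀ p : ℕ, p.Prime → p ∉ S → ∀ A : ValuationSubring Qb, A.LiesOverPrime p →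
      ∀ σ : GQ, A.IsFrobeniusAt σ p → Matrix.trace ((ρ σ : GL (Fin 2) ℂ) : M2 ℂ) = a p)
    (hR : DirichletLe (fun p => p ∉ S) (fun p => ‖a p‖ ^ 2) 1) :
    (Deformation.matrixRepresentation ρ).IsIrreducible := by
  classical
  apply irreducible_of_no_line
  intro v hv hline
  have : Finite ρ.range := finite_range_of_level ρ hlev
  have : Fintype ρ.range := Fintype.ofFinite _
  set f : ρ.range → ℝ := fun x => ‖Matrix.trace (((x : GL (Fin 2) ℂ)) : M2 ℂ)‖ ^ 2 with hf
  -- upper bound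
  have hdet : ∀ x : ρ.range, ‖Matrix.det (((x : GL (Fin 2) ℂ)) : M2 ℂ)‖ = 1 := by
    intro x
    have h1 : x ^ Fintype.card ρ.range = 1 := pow_card_eq_one
    have h2 : (Matrix.det (((x : GL (Fin 2) ℂ)) : M2 ℂ)) ^ Fintype.card ρ.range = 1 := by
      rw [← Matrix.det_pow]
      have h3 : ((x : GL (Fin 2) ℂ) : M2 ℂ) ^ Fintype.card ρ.range = 1 := by
        have := congrArg (fun y : ρ.range => ((y : GL (Fin 2) ℂ) : M2 ℂ)) h1
        simp only [SubmonoidClass.coe_pow, Units.val_pow_eq_pow_val, OneMemClass.coe_one,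
          Units.val_one] at this
        exact this
      rw [h3, Matrix.det_one]
    exact Complex.norm_eq_one_of_pow_eq_one h2 Fintype.card_ne_zero
  have hup : ∑ x, f x ≤ 1 * Fintype.card ρ.range := by
    refine sum_le_of_frob cheb ρ.rangeRestrict (level_rangeRestrict ρ hlev)
      ρ.rangeRestrict_surjective f (fun x => by positivity) ?_ ?_ S (fun p => ‖a p‖ ^ 2) ?_ hR
    · intro g h
      simp only [hf]
      congr 2
      have : (((h * g * h⁻¹ : ρ.range) : GL (Fin 2) ℂ) : M2 ℂ) =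
          ((h : GL (Fin 2) ℂ) : M2 ℂ) * ((g : GL (Fin 2) ℂ) : M2 ℂ) *
            (((h⁻¹ : ρ.range) : GL (Fin 2) ℂ) : M2 ℂ) := by
        simp
      rw [this, Matrix.trace_mul_comm, ← Matrix.mul_assoc]
      have h2 : (((h⁻¹ : ρ.range) : GL (Fin 2) ℂ) : M2 ℂ) * ((h : GL (Fin 2) ℂ) : M2 ℂ) = 1 := by
        simp
      rw [h2, Matrix.one_mul]
    · intro g
      simp only [hf]
      congr 1
      have h2 : ((g : GL (Fin 2) ℂ) : M2 ℂ) * (((g⁻¹ : ρ.range) : GL (Fin 2) ℂ) : M2 ℂ) = 1 := by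
        simp
      have h3 := trace_inv_mul_det _ _ h2
      rw [← h3, norm_mul, hdet, mul_one]
    · intro p hp hpS A hA σ hσ
      simp only [hf]
      rw [← hfrob p hp hpS A hA σ hσ]
      rfl
  -- lower bound
  obtain ⟨χ₁, χ₂, hχ⟩ := exists_chars_of_line ρ.range.subtype v hv (by
    rintro ⟨x, g, rfl⟩
    exact hline g)
  have hlow := two_mul_card_le_sum χ₁ χ₂
  have heq : ∑ g, ‖((χ₁ g : ℂˣ) : ℂ) + ((χ₂ g : ℂˣ) : ℂ)‖ ^ 2 = ∑ x, f x := by
    refine Finset.sum_congr rfl fun x _ => ?_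
    simp only [hf]
    rw [← hχ x]
    rfl
  have hpos : (0 : ℝ) < Fintype.card ρ.range := by exact_mod_cast Fintype.card_pos
  rw [heq] at hlow
  linarith

end Fermat.Agent.S48.End
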