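import Fermat.Agent.S48.End.Two
import Fermat.Agent.S48.End.Irr

/-!
# S48-END, file `Main`: the endgame of Deligne-Serre
-/

set_option autoImplicit false

open scoped MatrixGroups

namespace Fermat.Agent.S48.End

theorem endStatement : Fermat.Agent.S48.EndStatement := by
  intro cheb N _ X ι
  obtain ⟨ρ, hρ⟩ := exists_isRep_all cheb N X
  have hnb : ∀ p : ℕ, p.Prime → ¬ p ∣ N → p ∉ bad N := fun p _ h h1 =>
    h (Nat.dvd_of_mem_primeFactors h1)
  have hnb' : ∀ p : ℕ, p.Prime → p ∉ bad N → ¬ p ∣ N := fun p hp h h1 =>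
    h (Nat.mem_primeFactors.mpr ⟨hp, h1, NeZero.ne N⟩)
  set ρ' : GQ →* GL (Fin 2) ℂ := (Matrix.GeneralLinearGroup.map ι).comp ρ with hρ'
  have hval : ∀ σ, ((ρ' σ : GL (Fin 2) ℂ) : M2 ℂ) = ((ρ σ : GL (Fin 2) Qb) : M2 Qb).map ι := by
    intro σ
    rfl
  have htr : ∀ σ, Matrix.trace ((ρ' σ : GL (Fin 2) ℂ) : M2 ℂ) =
      ι (Matrix.trace ((ρ σ : GL (Fin 2) Qb) : M2 Qb)) := by
    intro σ
    rw [hval, Matrix.trace_fin_two, Matrix.trace_fin_two, map_add]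
    rfl
  have hdet : ∀ σ, Matrix.det ((ρ' σ : GL (Fin 2) ℂ) : M2 ℂ) =
      ι (Matrix.det ((ρ σ : GL (Fin 2) Qb) : M2 Qb)) := by
    intro σ
    rw [hval, Matrix.det_fin_two, Matrix.det_fin_two, map_sub, map_mul, map_mul]
    rfl
  have hlev : GaloisFactorsThroughFiniteLevel ρ' := level_comp ρ _ hρ.level
  refine ⟨ρ', hlev, ?_, ?_⟩
  · refine irreducible_of_rankin cheb ρ' hlev (bad N) (fun p => ι (X.a p)) ?_ ?_
    · intro p hp hpS A hA σ hσ
      rw [htr, (hρ.frob p hp hpS A hA σ hσ).1]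
    · exact DirichletLe.mono (X.rankin ι) fun p hp h => hnb' p hp h
  · intro p hp hpN A hA
    refine ⟨fun σ hσ => ?_, fun σ hσ => ?_⟩
    · rw [hρ', MonoidHom.comp_apply, hρ.unram p hp (hnb p hp hpN) A hA σ hσ, map_one]
    · obtain ⟨h1, h2⟩ := hρ.frob p hp (hnb p hp hpN) A hA σ hσ
      exact ⟨by rw [htr, h1], by rw [hdet, h2]⟩

end Fermat.Agent.S48.End
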