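import Fermat.Agent.S48.End.Defs

/-!
# S48-END, file `Level`: homomorphisms of finite level
-/

set_option autoImplicit false

namespace Fermat.Agent.S48.End

/-- [`r σ` depends only on `σ|_L : L →ₐ[ℚ] Qb` (if `σ, τ` agree on `L` then `τ⁻¹ σ` fixes `L`), and `L →ₐ[ℚ] Qb` is finite.] -/
theorem finite_range_of_level {M : Type} [Group M] (r : GQ →* M)
    (h : GaloisFactorsThroughFiniteLevel r) : Finite r.range := by
  obtain ⟨L, hL, hr⟩ := h
  let res : GQ → (L →ₐ[ℚ] Qb) := fun σ => (σ : Qb →ₐ[ℚ] Qb).comp L.val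
  have hfac : ∀ σ τ, res σ = res τ → r σ = r τ := by
    intro σ τ hst
    have h1 : r (τ⁻¹ * σ) = 1 := hr _ (fun x hx => by
      have h2 : σ x = τ x := DFunLike.congr_fun hst ⟨x, hx⟩
      show τ⁻¹ (σ x) = x
      rw [h2]
      exact τ.symm_apply_apply x)
    rw [map_mul, map_inv, inv_mul_eq_one] at h1
    exact h1.symm
  have hfin : Finite (L →ₐ[ℚ] Qb) := inferInstance
  choose s hs using fun y : r.range => MonoidHom.mem_range.1 y.2
  refine Finite.of_injective (fun y : r.range => res (s y)) ?_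
  intro y y' hyy
  apply Subtype.ext
  rw [← hs y, ← hs y']
  exact hfac _ _ hyy

/-- [compositum, `IntermediateField.finiteDimensional_sup`.] -/
theorem level_prod {M M' : Type} [Group M] [Group M'] (r : GQ →* M) (r' : GQ →* M')
    (h : GaloisFactorsThroughFiniteLevel r) (h' : GaloisFactorsThroughFiniteLevel r') :
    GaloisFactorsThroughFiniteLevel (r.prod r') := by
  obtain ⟨L, hL, hr⟩ := h
  obtain ⟨L', hL', hr'⟩ := h'
  refine ⟨L ⊔ L', IntermediateField.finiteDimensional_sup L L', fun σ hσ => ?_⟩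
  rw [MonoidHom.prod_apply]
  exact Prod.ext (hr σ fun x hx => hσ x ((le_sup_left : L ≤ L ⊔ L') hx))
    (hr' σ fun x hx => hσ x ((le_sup_right : L' ≤ L ⊔ L') hx))

theorem level_rangeRestrict {M : Type} [Group M] (r : GQ →* M)
    (h : GaloisFactorsThroughFiniteLevel r) : GaloisFactorsThroughFiniteLevel r.rangeRestrict := by
  obtain ⟨L, hL, hr⟩ := h
  exact ⟨L, hL, fun σ hσ => Subtype.ext (hr σ hσ)⟩

theorem level_comp {M M' : Type} [MulOneClass M] [MulOneClass M'] (r : GQ →* M) (f : M →* M')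
    (h : GaloisFactorsThroughFiniteLevel r) : GaloisFactorsThroughFiniteLevel (f.comp r) := by
  obtain ⟨L, hL, hr⟩ := h
  exact ⟨L, hL, fun σ hσ => by rw [MonoidHom.comp_apply, hr σ hσ, map_one]⟩

/-- a hom whose kernel contains the kernel of a hom of finite level has finite level -/
theorem level_of_ker {M M' : Type} [MulOneClass M] [MulOneClass M'] (r : GQ →* M) (r' : GQ →* M')
    (h : GaloisFactorsThroughFiniteLevel r) (hk : ∀ σ, r σ = 1 → r' σ = 1) :
    GaloisFactorsThroughFiniteLevel r' := by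
  obtain ⟨L, hL, hr⟩ := h
  exact ⟨L, hL, fun σ hσ => hk σ (hr σ hσ)⟩

theorem unram_of_ker {M M' : Type} [MulOneClass M] [MulOneClass M'] {S : Finset ℕ} (r : GQ →* M)
    (r' : GQ →* M') (h : UnramOutside S r) (hk : ∀ σ, r σ = 1 → r' σ = 1) : UnramOutside S r' := by
  exact fun p hp hpS A hA σ hσ => hk σ (h p hp hpS A hA σ hσ)

theorem UnramOutside.mono {M : Type} [MulOneClass M] {S S' : Finset ℕ} {r : GQ →* M}
    (h : UnramOutside S r) (hS : S ⊆ S') : UnramOutside S' r := by
  exact fun p hp hpS' => h p hp (fun hpS => hpS' (hS hpS))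

/-- every element of the image has order dividing `B !` if the image has at most `B` elements -/
theorem pow_factorial_eq_one {M : Type} [Group M] (r : GQ →* M) [Finite r.range] {B : ℕ}
    (hB : Nat.card r.range ≤ B) (σ : GQ) : r σ ^ B.factorial = 1 := by
  have h1 : (⟨r σ, σ, rfl⟩ : r.range) ^ Nat.card r.range = 1 := pow_card_eq_one'
  obtain ⟨c, hc⟩ := Nat.dvd_factorial Nat.card_pos hB
  have h2 : (⟨r σ, σ, rfl⟩ : r.range) ^ B.factorial = 1 := by rw [hc, pow_mul, h1, one_pow]
  exact congrArg Subtype.val h2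

end Fermat.Agent.S48.End
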