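import Fermat.Agent.S48.End.Dir
import Fermat.Agent.S48.End.Level

/-!
# S48-END, file `ChebEx`: consequences of `ChebStatement`
-/

set_option autoImplicit false

namespace Fermat.Agent.S48.End

/-- **existence form**: every `g` or its inverse is conjugate (in the image of `r`) to a Frobenius element at a prime outside `S`.
[`G := r.range` (finite: `finite_range_of_level`), `r' := r.rangeRestrict` (surjective, finite level), `T := {x | ∃ h, x = h * r' g * h⁻¹ ∨ x = h * (r' g)⁻¹ * h⁻¹}`,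
nonempty, stable under conjugation and inversion; `δ := 1 / (2 * card G)`; `exists_prime_of_dirichletGe`; write `h = r' h₀`.] -/
theorem exists_frob_conj (cheb : ChebStatement) {G : Type} [Group G] (r : GQ →* G)
    (hlev : GaloisFactorsThroughFiniteLevel r) (S : Finset ℕ) (g : GQ) :
    ∃ (p : ℕ) (A : ValuationSubring Qb) (σ h : GQ), p.Prime ∧ p ∉ S ∧ A.LiesOverPrime p ∧
      A.IsFrobeniusAt σ p ∧ (r σ = r (h * g * h⁻¹) ∨ r σ = r (h * g⁻¹ * h⁻¹)) := by
  have hfin : Finite r.range := finite_range_of_level r hlev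
  have hsurj : Function.Surjective r.rangeRestrict := r.rangeRestrict_surjective
  obtain ⟨T, hTdef⟩ : ∃ T : Set r.range, T = {x | ∃ h : r.range,
      x = h * r.rangeRestrict g * h⁻¹ ∨ x = h * (r.rangeRestrict g)⁻¹ * h⁻¹} := ⟨_, rfl⟩
  have hconj : ∀ x h : r.range, x ∈ T → h * x * h⁻¹ ∈ T := by
    intro x h₁ hx
    rw [hTdef] at hx ⊢
    obtain ⟨h, hx | hx⟩ := hx
    · exact ⟨h₁ * h, Or.inl (by rw [hx]; group)⟩
    · exact ⟨h₁ * h, Or.inr (by rw [hx]; group)⟩
  have hinv : ∀ x ∈ T, x⁻¹ ∈ T := by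
    intro x hx
    rw [hTdef] at hx ⊢
    obtain ⟨h, hx | hx⟩ := hx
    · exact ⟨h, Or.inr (by rw [hx]; group)⟩
    · exact ⟨h, Or.inl (by rw [hx]; group)⟩
  have hgT : r.rangeRestrict g ∈ T := by
    rw [hTdef]
    exact ⟨1, Or.inl (by group)⟩
  have hcardT : (1 : ℝ) ≤ (Nat.card T : ℝ) := by
    have : Nonempty T := ⟨⟨_, hgT⟩⟩
    exact_mod_cast Nat.one_le_iff_ne_zero.2 Nat.card_pos.ne'
  have hcardG : (0 : ℝ) < (Nat.card r.range : ℝ) := by
    exact_mod_cast Nat.card_pos
  have hδ : (0 : ℝ) < 1 / (2 * (Nat.card r.range : ℝ)) := by positivity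
  have hc : (0 : ℝ) < (Nat.card T : ℝ) / Nat.card r.range - 1 / (2 * (Nat.card r.range : ℝ)) := by
    have h1 : 1 / (Nat.card r.range : ℝ) ≤ (Nat.card T : ℝ) / Nat.card r.range :=
      div_le_div_of_nonneg_right hcardT hcardG.le
    have h2 : 1 / (Nat.card r.range : ℝ) - 1 / (2 * (Nat.card r.range : ℝ)) =
        1 / (2 * (Nat.card r.range : ℝ)) := by
      field_simp
      norm_num
    linarith
  have hge := cheb r.range r.rangeRestrict (level_rangeRestrict r hlev) hsurj T hconj hinv S _ hδ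
  obtain ⟨p, hp, hpS, A, σ, hA, hσ, hσT⟩ := exists_prime_of_dirichletGe hc hge
  rw [hTdef] at hσT
  obtain ⟨h, hh⟩ := hσT
  obtain ⟨h₀, rfl⟩ := hsurj h
  refine ⟨p, A, σ, h₀, hp, hpS, hA, hσ, ?_⟩
  rcases hh with hh | hh
  · left
    have h3 := congrArg (fun x : r.range => (x : G)) hh
    simpa using h3
  · right
    have h3 := congrArg (fun x : r.range => (x : G)) hh
    simpa using h3

/-- **density form**: a subset `T` (stable under conjugation and inversion) all of whose Frobenius primes lie in a set of upper density `≤ η`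
has at most `η |G|` elements.  [`cheb` for every `δ > 0` + `le_of_dirichletGe_le`: `|T|/|G| - δ ≤ η` for all `δ > 0`.] -/
theorem card_le_of_frobIn (cheb : ChebStatement) {G : Type} [Group G] [Finite G] (r : GQ →* G)
    (hlev : GaloisFactorsThroughFiniteLevel r) (hsurj : Function.Surjective r) (S : Finset ℕ)
    (P : ℕ → Prop) {η : ℝ} (hP : DirichletLe P (fun _ => 1) η) (T : Set G)
    (hconj : ∀ g h : G, g ∈ T → h * g * h⁻¹ ∈ T) (hinv : ∀ g ∈ T, g⁻¹ ∈ T)
    (hT : ∀ p : ℕ, p.Prime → p ∉ S → FrobIn r T p → P p) :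
    (Nat.card T : ℝ) ≤ η * Nat.card G := by
  have hcardG : (0 : ℝ) < (Nat.card G : ℝ) := by
    exact_mod_cast Nat.card_pos
  have h1 : (Nat.card T : ℝ) / Nat.card G ≤ η := by
    apply le_of_forall_pos_le_add
    intro δ hδ
    have hge := cheb G r hlev hsurj T hconj hinv S δ hδ
    have h2 := le_of_dirichletGe_le hge hP (fun p hp h => hT p hp h.1 h.2)
    linarith
  rwa [div_le_iff₀ hcardG] at h1

end Fermat.Agent.S48.End
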