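import Fermat.Agent.S48.End.Dir

/-!
# S48-END, file `Northcott`: outside a set of primes of small density the `a_p` take finitely many values
-/

set_option autoImplicit false

namespace Fermat.Agent.S48.End

/-- auxiliary: every embedding of `K` extends to `Qb`. -/
theorem Northcott_exists_ext (K : IntermediateField ℚ Qb) (φ : K →+* ℂ) :
    ∃ j : Qb →+* ℂ, ∀ y : K, j (y : Qb) = φ y := by
  let _ : Algebra K ℂ := φ.toAlgebra
  have : Algebra.IsAlgebraic ℚ Qb := AlgebraicClosure.isAlgebraic ℚ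
  have : Algebra.IsAlgebraic K Qb := Algebra.IsAlgebraic.tower_top (K := ℚ) K
  let f : Qb →ₐ[K] ℂ := IsAlgClosed.lift
  exact ⟨f.toRingHom, fun y => f.commutes y⟩

/-- [`NumberField K` (`K` finite dimensional over `ℚ`, characteristic `0`); `NumberField.Embeddings.finite_of_norm_le K ℂ (D * √c)` applied to `D x`;
the map `x ↦ D x` is injective.  Every `φ : K →+* ℂ` extends to some `j : Qb →+* ℂ` (`IsAlgClosed.lift`, `Qb` algebraic over `K`).] -/
theorem finite_bounded (K : IntermediateField ℚ Qb) [FiniteDimensional ℚ K] (D : ℕ) (hD : D ≠ 0) (c : ℝ) :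
    {x : Qb | x ∈ K ∧ IsIntegral ℤ ((D : Qb) * x) ∧ ∀ j : Qb →+* ℂ, ‖j x‖ ^ 2 ≤ c}.Finite := by
  have : NumberField K := { to_charZero := inferInstance, to_finiteDimensional := inferInstance }
  have hT := NumberField.Embeddings.finite_of_norm_le K ℂ ((D : ℝ) * Real.sqrt c)
  have hD' : (D : Qb) ≠ 0 := by exact_mod_cast hD
  refine (hT.image (fun y : K => (y : Qb) / (D : Qb))).subset ?_
  rintro x ⟨hxK, hint, hb⟩
  have hmem : (D : Qb) * x ∈ K := mul_mem (natCast_mem K D) hxK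
  refine ⟨⟨(D : Qb) * x, hmem⟩, ⟨?_, ?_⟩, ?_⟩
  · exact (isIntegral_algebraMap_iff (A := K) (B := Qb) (algebraMap K Qb).injective).1 hint
  · intro φ
    obtain ⟨j, hj⟩ := Northcott_exists_ext K φ
    rw [← hj]
    show ‖j ((D : Qb) * x)‖ ≤ _
    rw [map_mul, map_natCast, norm_mul, Complex.norm_natCast]
    exact mul_le_mul_of_nonneg_left (Real.le_sqrt_of_sq_le (hb j)) (Nat.cast_nonneg D)
  · show (D : Qb) * x / (D : Qb) = x
    field_simp

/-- finitely many embeddings `j₁, …, j_r` of `Qb` see all the embeddings of `K`.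
[for each `φ : K →+* ℂ` (a finite type) choose an extension `j_φ : Qb →+* ℂ` (`IsAlgClosed.lift`, `Qb` is algebraic over `K`); every `j` restricts to some `φ`.] -/
theorem exists_embeddings (K : IntermediateField ℚ Qb) [FiniteDimensional ℚ K] :
    ∃ J : Finset (Qb →+* ℂ), J.Nonempty ∧ ∀ j : Qb →+* ℂ, ∃ j' ∈ J, ∀ x ∈ K, j x = j' x := by
  classical
  have : NumberField K := { to_charZero := inferInstance, to_finiteDimensional := inferInstance }
  choose e he using Northcott_exists_ext K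
  have key : ∀ j : Qb →+* ℂ, ∃ j' ∈ Finset.univ.image e, ∀ x ∈ K, j x = j' x := by
    intro j
    refine ⟨e (j.comp (algebraMap K Qb)), Finset.mem_image_of_mem _ (Finset.mem_univ _), ?_⟩
    intro x hx
    exact (he (j.comp (algebraMap K Qb)) ⟨x, hx⟩).symm
  refine ⟨Finset.univ.image e, ?_, key⟩
  have : Algebra.IsAlgebraic ℚ Qb := AlgebraicClosure.isAlgebraic ℚ
  let j0 : Qb →ₐ[ℚ] ℂ := IsAlgClosed.lift
  obtain ⟨j', hj', -⟩ := key j0.toRingHom
  exact ⟨j', hj'⟩

/-- **Step 1 of Deligne-Serre.**  [`J` from `exists_embeddings X.K`, `r := J.card`, `c := r / η`, `Y :=` the finite set of `finite_bounded X.K X.D X.D_ne c`.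
`DirichletLe.sum` of `X.rankin j`, `j ∈ J`: `DirichletLe (¬ p ∣ N) (fun p => ∑_{j ∈ J} ‖j (a p)‖²) r`.  If `¬ p ∣ N` and `a p ∉ Y` then some `‖j (a p)‖² > c`, `j ∈ J` w.l.o.g., so
`c * 1 ≤ ∑_{j ∈ J} ‖j (a p)‖²`: `DirichletLe.mono`, `DirichletLe.of_le`, `DirichletLe.div_const`.] -/
theorem exists_finite_good {N : ℕ} [NeZero N] (X : ArithData N) {η : ℝ} (hη : 0 < η) :
    ∃ Y : Finset Qb, DirichletLe (fun p => ¬ p ∣ N ∧ X.a p ∉ Y) (fun _ => 1) η := by
  classical
  have := X.finK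
  obtain ⟨J, hJ, hJK⟩ := exists_embeddings X.K
  have hr : (0 : ℝ) < J.card := by exact_mod_cast hJ.card_pos
  set c : ℝ := J.card / η with hc
  have hc0 : 0 < c := div_pos hr hη
  have hfin := finite_bounded X.K X.D X.D_ne c
  refine ⟨hfin.toFinset, ?_⟩
  have h1 : DirichletLe (fun p => ¬ p ∣ N) (fun p => ∑ j ∈ J, ‖j (X.a p)‖ ^ 2) (∑ _j ∈ J, (1 : ℝ)) :=
    DirichletLe.sum J (fun j p => ‖j (X.a p)‖ ^ 2) (fun _ => 1) (fun j _ => X.rankin j)
  rw [Finset.sum_const, nsmul_eq_mul, mul_one] at h1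
  have h2 : DirichletLe (fun p => ¬ p ∣ N ∧ X.a p ∉ hfin.toFinset)
      (fun p => ∑ j ∈ J, ‖j (X.a p)‖ ^ 2) J.card := DirichletLe.mono h1 (fun p _ hp => hp.1)
  have h3 : DirichletLe (fun p => ¬ p ∣ N ∧ X.a p ∉ hfin.toFinset) (fun _ => c * 1) J.card := by
    refine DirichletLe.of_le h2 ?_
    rintro p hp ⟨hpN, hY⟩
    rw [Set.Finite.mem_toFinset, Set.mem_setOf_eq] at hY
    have h4 : ¬ ∀ j : Qb →+* ℂ, ‖j (X.a p)‖ ^ 2 ≤ c := fun h =>
      hY ⟨X.mem p hp hpN, X.int p hp hpN, h⟩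
    push_neg at h4
    obtain ⟨j, hj⟩ := h4
    obtain ⟨j', hj', hjj'⟩ := hJK j
    rw [hjj' _ (X.mem p hp hpN)] at hj
    rw [mul_one]
    exact hj.le.trans (Finset.single_le_sum (f := fun j => ‖j (X.a p)‖ ^ 2)
      (fun i _ => sq_nonneg _) hj')
  have h5 := DirichletLe.div_const hc0 h3
  have e : (J.card : ℝ) / c = η := by
    rw [hc]
    field_simp
  rwa [e] at h5

end Fermat.Agent.S48.End
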