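import Fermat.Agent.S48.End.Defs
import Fermat.Agent.Lib.Frobenius
import Fermat.Agent.EL.AuxPt

/-!
# S48-END, file `Res`: API of the reduction map `res Λ : Qb → kk Λ`
-/

set_option autoImplicit false

namespace Fermat.Agent.S48.End

variable (Λ : ValuationSubring Qb)

theorem res_of_mem {x : Qb} (h : x ∈ Λ) : res Λ x = IsLocalRing.residue Λ ⟨x, h⟩ := by
  unfold res
  rw [dif_pos h]

theorem res_zero : res Λ 0 = 0 := by
  rw [res_of_mem Λ Λ.zero_mem]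
  exact map_zero (IsLocalRing.residue Λ)

theorem res_one : res Λ 1 = 1 := by
  rw [res_of_mem Λ Λ.one_mem]
  exact map_one (IsLocalRing.residue Λ)

theorem res_add {x y : Qb} (hx : x ∈ Λ) (hy : y ∈ Λ) : res Λ (x + y) = res Λ x + res Λ y := by
  rw [res_of_mem Λ hx, res_of_mem Λ hy, res_of_mem Λ (add_mem hx hy), ← map_add]
  rfl

theorem res_sub {x y : Qb} (hx : x ∈ Λ) (hy : y ∈ Λ) : res Λ (x - y) = res Λ x - res Λ y := by
  rw [res_of_mem Λ hx, res_of_mem Λ hy, res_of_mem Λ (sub_mem hx hy), ← map_sub]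
  rfl

theorem res_mul {x y : Qb} (hx : x ∈ Λ) (hy : y ∈ Λ) : res Λ (x * y) = res Λ x * res Λ y := by
  rw [res_of_mem Λ hx, res_of_mem Λ hy, res_of_mem Λ (mul_mem hx hy), ← map_mul]
  rfl

theorem res_pow {x : Qb} (hx : x ∈ Λ) (n : ℕ) : res Λ (x ^ n) = res Λ x ^ n := by
  rw [res_of_mem Λ hx, res_of_mem Λ (pow_mem hx n), ← map_pow]
  rfl

theorem res_natCast (n : ℕ) : res Λ (n : Qb) = (n : kk Λ) := by
  rw [res_of_mem Λ (natCast_mem Λ n), ← map_natCast (IsLocalRing.residue Λ) n]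
  rfl

theorem res_eq_zero_iff {x : Qb} (hx : x ∈ Λ) : res Λ x = 0 ↔ x ∈ Λ.nonunits := by
  rw [res_of_mem Λ hx, IsLocalRing.residue_eq_zero_iff,
    ValuationSubring.mem_nonunits_iff_exists_mem_maximalIdeal]
  exact ⟨fun h => ⟨hx, h⟩, fun ⟨_, h⟩ => h⟩

theorem res_eq_iff {x y : Qb} (hx : x ∈ Λ) (hy : y ∈ Λ) :
    res Λ x = res Λ y ↔ x - y ∈ Λ.nonunits := by
  rw [← sub_eq_zero, ← res_sub Λ hx hy, res_eq_zero_iff Λ (sub_mem hx hy)]

theorem res_surjective (y : kk Λ) : ∃ x ∈ Λ, res Λ x = y := by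
  obtain ⟨⟨x, hx⟩, rfl⟩ := IsLocalRing.residue_surjective y
  exact ⟨x, hx, res_of_mem Λ hx⟩

/-- [`Lib.Frobenius.isIntegral_mem`] -/
theorem mem_of_isIntegral {x : Qb} (h : IsIntegral ℤ x) : x ∈ Λ := by
  exact Lib.Frobenius.isIntegral_mem Λ h

/-- [`x^n = 1`: `x` and `x⁻¹ = x^(n-1)` are integral.] -/
theorem mem_of_pow_eq_one {x : Qb} {n : ℕ} (hn : 0 < n) (h : x ^ n = 1) :
    x ∈ Λ ∧ x⁻¹ ∈ Λ ∧ x ∉ Λ.nonunits := by
  have h1 : x ∈ Λ :=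
    mem_of_isIntegral Λ (IsIntegral.of_pow hn (by rw [h]; exact isIntegral_one))
  have h2 : x⁻¹ ∈ Λ :=
    mem_of_isIntegral Λ (IsIntegral.of_pow hn (by rw [inv_pow, h, inv_one]; exact isIntegral_one))
  refine ⟨h1, h2, fun h3 => ?_⟩
  have hx0 : x ≠ 0 := by
    rintro rfl
    rw [zero_pow hn.ne'] at h
    exact zero_ne_one h
  have h4 := Lib.Frobenius.nonunits_mul Λ h3 h2
  rw [mul_inv_cancel₀ hx0, ValuationSubring.mem_nonunits_iff, map_one] at h4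
  exact lt_irrefl _ h4

theorem res_inv {x : Qb} (hx : x ∈ Λ) (hx' : x⁻¹ ∈ Λ) : res Λ x⁻¹ = (res Λ x)⁻¹ := by
  rcases eq_or_ne x 0 with rfl | hx0
  · rw [inv_zero, res_zero, inv_zero]
  · apply eq_inv_of_mul_eq_one_left
    rw [← res_mul Λ hx' hx, inv_mul_cancel₀ hx0, res_one]

variable {Λ}

/-- [`D` is a unit of `Λ` (`Lib.Frobenius.intCast_not_mem_nonunits`, `inv_mem_of_not_mem_nonunits`), `x = D⁻¹ (D x)`.] -/
theorem mem_of_isIntegral_mul {ℓ D : ℕ} (hℓ : ℓ.Prime) (hΛ : Λ.LiesOverPrime ℓ) (hD : ¬ ℓ ∣ D) {x : Qb}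
    (h : IsIntegral ℤ ((D : Qb) * x)) : x ∈ Λ := by
  have hD0 : (D : Qb) ≠ 0 := by
    intro h0
    have : D = 0 := by exact_mod_cast h0
    exact hD (this ▸ dvd_zero ℓ)
  have h1 : ((D : ℤ) : Qb) ∉ Λ.nonunits :=
    Lib.Frobenius.intCast_not_mem_nonunits Λ hℓ hΛ (fun h => hD (Int.natCast_dvd_natCast.1 h))
  rw [Int.cast_natCast] at h1
  have h2 : (D : Qb)⁻¹ ∈ Λ := Lib.Frobenius.inv_mem_of_not_mem_nonunits Λ (natCast_mem Λ D) h1
  have h3 : x = (D : Qb)⁻¹ * ((D : Qb) * x) := by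
    rw [← mul_assoc, inv_mul_cancel₀ hD0, one_mul]
  rw [h3]
  exact mul_mem h2 (mem_of_isIntegral Λ h)

/-- [`(n : kk Λ) = 0 ↔ (n : Qb) ∈ Λ.nonunits ↔ ℓ ∣ n`.] -/
theorem charP_kk {ℓ : ℕ} (hℓ : ℓ.Prime) (hΛ : Λ.LiesOverPrime ℓ) : CharP (kk Λ) ℓ := by
  refine ⟨fun n => ?_⟩
  rw [← res_natCast, res_eq_zero_iff Λ (natCast_mem Λ n)]
  constructor
  · intro h
    by_contra hn
    have h1 : ((n : ℤ) : Qb) ∉ Λ.nonunits :=
      Lib.Frobenius.intCast_not_mem_nonunits Λ hℓ hΛ (fun h => hn (Int.natCast_dvd_natCast.1 h))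
    rw [Int.cast_natCast] at h1
    exact h1 h
  · rintro ⟨k, rfl⟩
    rw [Nat.cast_mul]
    exact Lib.Frobenius.nonunits_mul Λ hΛ (natCast_mem Λ k)

variable (Λ)

/-- [`EL.isAlgClosed_residueField`] -/
theorem isAlgClosed_kk : IsAlgClosed (kk Λ) := by
  exact EL.isAlgClosed_residueField

end Fermat.Agent.S48.End
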