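import Fermat.Agent.S48.End.Count
import Fermat.Agent.S48.End.Northcott
import Fermat.Agent.S48.End.ChebEx
import Fermat.Agent.S48.End.Res
import Fermat.Agent.S48.End.Fin

/-!
# S48-END, file `Bound`: the images of the mod `Λ` representations are bounded independently of `Λ`
-/

set_option autoImplicit false

open scoped MatrixGroups

namespace Fermat.Agent.S48.End

/-- `TraceND` is inherited by the inclusion of the image. -/
theorem Bound_traceND {k G : Type*} [Field k] [Group G] (ρ : G →* GL (Fin 2) k) (h : TraceND ρ) :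
    TraceND ρ.range.subtype := by
  intro x hx hx0
  refine h x ?_ fun g => hx0 ⟨ρ g, g, rfl⟩
  have e : (Set.range fun g : ρ.range => ((ρ.range.subtype g : GL (Fin 2) k) : M2 k)) =
      Set.range fun g : G => ((ρ g : GL (Fin 2) k) : M2 k) := by
    ext y
    constructor
    · rintro ⟨⟨_, g, rfl⟩, rfl⟩
      exact ⟨g, rfl⟩
    · rintro ⟨g, rfl⟩
      exact ⟨⟨ρ g, g, rfl⟩, rfl⟩
  rwa [e] at hx

/-- the values of a Dirichlet character at the primes not dividing the level. -/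
theorem Bound_char {N : ℕ} [NeZero N] (e : DirichletCharacter Qb N) {p : ℕ} (hp : p.Prime)
    (hpN : ¬ p ∣ N) :
    (∃ x : (ZMod N)ˣ, e (x : ZMod N) = e (p : ZMod N)) ∧ e (p : ZMod N) ^ N.totient = 1 := by
  have hc : p.Coprime N := (Nat.Prime.coprime_iff_not_dvd hp).2 hpN
  have e1 : ((ZMod.unitOfCoprime p hc : (ZMod N)ˣ) : ZMod N) = (p : ZMod N) :=
    ZMod.coe_unitOfCoprime p hc
  refine ⟨⟨ZMod.unitOfCoprime p hc, by rw [e1]⟩, ?_⟩
  rw [← e1, ← map_pow, ← Units.val_pow_eq_pow_val, ZMod.pow_totient, Units.val_one, map_one]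

/-- trace of `g` from the trace and determinant of a conjugate of `g⁻¹`. -/
theorem Bound_trace_inv {k : Type*} [Field k] (g h s : GL (Fin 2) k) (hs : s = h * g⁻¹ * h⁻¹)
    {t d d' : k} (ht : Matrix.trace (s : M2 k) = t) (hd : Matrix.det (s : M2 k) = d)
    (hdd : d * d' = 1) : Matrix.trace (g : M2 k) = t * d' := by
  have h1 : Matrix.trace (s : M2 k) = Matrix.trace ((g⁻¹ : GL (Fin 2) k) : M2 k) := by
    rw [hs, Units.val_mul, Units.val_mul]
    exact Matrix.trace_units_conj h _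
  have h2 : Matrix.det (s : M2 k) = Matrix.det ((g⁻¹ : GL (Fin 2) k) : M2 k) := by
    rw [hs, Units.val_mul, Units.val_mul]
    exact Matrix.det_units_conj h _
  have h3 : ((g⁻¹ : GL (Fin 2) k) : M2 k) * (g : M2 k) = 1 := by
    rw [← Units.val_mul, inv_mul_cancel, Units.val_one]
  have h4 := trace_inv_mul_det _ _ h3
  rw [← h1, ← h2, ht, hd] at h4
  calc Matrix.trace (g : M2 k) = Matrix.trace (g : M2 k) * (d * d') := by rw [hdd, mul_one]
    _ = t * d' := by rw [← mul_assoc, h4]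

/-- **Steps 2 and 3 of Deligne-Serre.**
[`Y₀` from `exists_finite_good X (η := 1/8)`.  `E₀ :=` the finite set of values `X.e x`, `x : (ZMod N)ˣ` (roots of unity).  `Y₁ := Y₀ ∪ {y * ε⁻¹ | y ∈ Y₀, ε ∈ E₀}`, `B := 2 * Y₁.card ^ 4`.
Given `ℓ ∤ D`, `Λ`, `ρb`: `G := ρb.range` (finite: `finite_range_of_level`), `r := ρb.rangeRestrict` (surjective, finite level), `ρ := G.subtype` (injective, `TraceND` is inherited: same span).
`H := {g | ∃ p A σ h, p.Prime ∧ ¬ p ∣ N * ℓ ∧ X.a p ∈ Y₀ ∧ A.LiesOverPrime p ∧ A.IsFrobeniusAt σ p ∧ (r σ = h * g * h⁻¹ ∨ r σ = h * g⁻¹ * h⁻¹)}`, `T := Hᶜ`: both stable under conjugation and inversion.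
`card_le_of_frobIn cheb r … (S := bad (N * ℓ)) (P := fun p => ¬ p ∣ N ∧ X.a p ∉ Y₀) (η := 1/8) T`: if `p ∉ S` and some Frobenius `σ` at `p` has `r σ ∈ T` then `X.a p ∉ Y₀` (else `r σ ∈ H`, `h = 1`).  So `8 card T ≤ card G`.
Traces on `H`: `tr g = tr (h g h⁻¹)`.  If `r σ = h g h⁻¹`: `tr g = res (a p) ∈ res '' Y₁`.  If `r σ = h g⁻¹ h⁻¹`: `tr g = tr(g⁻¹) / det(g⁻¹) = res (a p) / res (e p) = res (a p * (e p)⁻¹)`
(`trace_inv_mul_det`, `res_mul`, `res_inv`, `mem_of_isIntegral_mul` for `a p ∈ Λ`, `mem_of_pow_eq_one` for `e p`).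
`card_le_of_trace_values ρ … H … (Y := Y₁.image (res Λ))`, `Finset.card_image_le`.] -/
theorem exists_bound (cheb : ChebStatement) (N : ℕ) [NeZero N] (X : ArithData N) :
    ∃ B : ℕ, ∀ ℓ : ℕ, ℓ.Prime → ¬ ℓ ∣ X.D → ∀ Λ : ValuationSubring Qb, Λ.LiesOverPrime ℓ →
      ∀ ρb : GQ →* GL (Fin 2) (kk Λ),
        IsModRep (bad (N * ℓ)) Λ X.a (fun p => X.e (p : ZMod N)) ρb → Nat.card ρb.range ≤ B := by
  classical
  obtain ⟨Y₀, hY₀⟩ := exists_finite_good X (η := 1 / 8) (by norm_num)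
  let E₀ : Finset Qb := Finset.univ.image (fun x : (ZMod N)ˣ => X.e (x : ZMod N))
  let Y₁ : Finset Qb := Y₀ ∪ (Y₀ ×ˢ E₀).image (fun y => y.1 * y.2⁻¹)
  refine ⟨2 * Y₁.card ^ 4, fun ℓ hℓ hD Λ hΛ ρb hρ => ?_⟩
  have hfin : Finite ρb.range := finite_range_of_level ρb hρ.level
  have hNℓ : N * ℓ ≠ 0 := mul_ne_zero (NeZero.ne N) hℓ.ne_zero
  have hbad : ∀ p : ℕ, p.Prime → (p ∉ bad (N * ℓ) ↔ ¬ p ∣ N * ℓ) := by
    intro p hp
    rw [Nat.mem_primeFactors]
    constructor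
    · exact fun h hd => h ⟨hp, hd, hNℓ⟩
    · exact fun h hd => h hd.2.1
  let H : Set ρb.range := {g | ∃ (p : ℕ) (A : ValuationSubring Qb) (σ : GQ) (h : ρb.range),
    p.Prime ∧ ¬ p ∣ N * ℓ ∧ X.a p ∈ Y₀ ∧ A.LiesOverPrime p ∧ A.IsFrobeniusAt σ p ∧
      (ρb.rangeRestrict σ = h * g * h⁻¹ ∨ ρb.rangeRestrict σ = h * g⁻¹ * h⁻¹)}
  have hHconj : ∀ g x : ρb.range, g ∈ H → x * g * x⁻¹ ∈ H := by
    rintro g x ⟨p, A, σ, h, hp, hpN, hY, hA, hσ, hh⟩
    refine ⟨p, A, σ, h * x⁻¹, hp, hpN, hY, hA, hσ, ?_⟩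
    rcases hh with hh | hh
    · left
      rw [hh]
      group
    · right
      rw [hh]
      group
  have hHinv : ∀ g : ρb.range, g ∈ H → g⁻¹ ∈ H := by
    rintro g ⟨p, A, σ, h, hp, hpN, hY, hA, hσ, hh⟩
    refine ⟨p, A, σ, h, hp, hpN, hY, hA, hσ, ?_⟩
    rcases hh with hh | hh
    · right
      rw [hh, inv_inv]
    · left
      exact hh
  have hT : (Nat.card (Hᶜ : Set ρb.range) : ℝ) ≤ 1 / 8 * Nat.card ρb.range := by
    refine card_le_of_frobIn cheb ρb.rangeRestrict (level_rangeRestrict ρb hρ.level)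
      ρb.rangeRestrict_surjective (bad (N * ℓ)) (fun p => ¬ p ∣ N ∧ X.a p ∉ Y₀) hY₀ Hᶜ ?_ ?_ ?_
    · intro g h hg hmem
      apply hg
      have := hHconj _ h⁻¹ hmem
      have e : h⁻¹ * (h * g * h⁻¹) * h⁻¹⁻¹ = g := by group
      rwa [e] at this
    · intro g hg hmem
      apply hg
      have := hHinv _ hmem
      rwa [inv_inv] at this
    · rintro p hp hpS ⟨A, σ, hA, hσ, hmem⟩
      have hpN : ¬ p ∣ N * ℓ := (hbad p hp).1 hpS
      refine ⟨fun hd => hpN (Dvd.dvd.mul_right hd ℓ), fun hY => hmem ?_⟩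
      exact ⟨p, A, σ, 1, hp, hpN, hY, hA, hσ, Or.inl (by group)⟩
  have hT' : 8 * Nat.card (Hᶜ : Set ρb.range) ≤ Nat.card ρb.range := by
    have : (8 : ℝ) * Nat.card (Hᶜ : Set ρb.range) ≤ Nat.card ρb.range := by linarith
    exact_mod_cast this
  have hY : ∀ g ∈ H, Matrix.trace ((ρb.range.subtype g : GL (Fin 2) (kk Λ)) : M2 (kk Λ)) ∈
      Y₁.image (res Λ) := by
    rintro g ⟨p, A, σ, h, hp, hpNℓ, hY, hA, hσ, hh⟩
    have hpN : ¬ p ∣ N := fun hd => hpNℓ (Dvd.dvd.mul_right hd ℓ)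
    obtain ⟨htr, hdet⟩ := hρ.frob p hp ((hbad p hp).2 hpNℓ) A hA σ hσ
    beta_reduce at htr hdet
    rw [Finset.mem_image]
    rcases hh with hh | hh
    · refine ⟨X.a p, Finset.mem_union_left _ hY, ?_⟩
      have e : ρb σ = (h : GL (Fin 2) (kk Λ)) * (g : GL (Fin 2) (kk Λ)) *
          (h : GL (Fin 2) (kk Λ))⁻¹ := congrArg Subtype.val hh
      rw [← htr, e, Units.val_mul, Units.val_mul]
      exact Matrix.trace_units_conj (h : GL (Fin 2) (kk Λ)) ((g : GL (Fin 2) (kk Λ)) : M2 (kk Λ))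
    · obtain ⟨⟨x, hx⟩, hpow⟩ := Bound_char X.e hp hpN
      obtain ⟨he1, he2, -⟩ := mem_of_pow_eq_one Λ (Nat.totient_pos.2 (Nat.pos_of_ne_zero
        (NeZero.ne N))) hpow
      have ha : X.a p ∈ Λ := mem_of_isIntegral_mul hℓ hΛ hD (X.int p hp hpN)
      have he0 : X.e (p : ZMod N) ≠ 0 := by
        intro h0
        rw [h0, zero_pow (Nat.totient_pos.2 (Nat.pos_of_ne_zero (NeZero.ne N))).ne'] at hpow
        exact zero_ne_one hpow
      refine ⟨X.a p * (X.e (p : ZMod N))⁻¹, Finset.mem_union_right _ ?_, ?_⟩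
      · rw [Finset.mem_image]
        refine ⟨(X.a p, X.e (p : ZMod N)), Finset.mem_product.2 ⟨hY, ?_⟩, rfl⟩
        exact Finset.mem_image.2 ⟨x, Finset.mem_univ _, hx⟩
      · have e : ρb σ = (h : GL (Fin 2) (kk Λ)) * (g : GL (Fin 2) (kk Λ))⁻¹ *
            (h : GL (Fin 2) (kk Λ))⁻¹ := congrArg Subtype.val hh
        have hdd : res Λ (X.e (p : ZMod N)) * res Λ (X.e (p : ZMod N))⁻¹ = 1 := by
          rw [← res_mul Λ he1 he2, mul_inv_cancel₀ he0, res_one]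
        rw [res_mul Λ ha he2]
        exact (Bound_trace_inv _ _ _ e htr hdet hdd).symm
  have hmain := card_le_of_trace_values ρb.range.subtype ρb.range.subtype_injective
    (Bound_traceND ρb hρ.nd) H hT' (Y₁.image (res Λ)) hY
  refine hmain.trans ?_
  exact Nat.mul_le_mul_left 2 (Nat.pow_le_pow_left Finset.card_image_le 4)

end Fermat.Agent.S48.End
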