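import Fermat.Agent.S48.End.Dir
import Fermat.Agent.S48.End.Level

/-!
# S48-END, file `ChebSum`: weighted form of `ChebStatement`
-/

set_option autoImplicit false

namespace Fermat.Agent.S48.End

/-- **weighted form**: the mean value of a class function `f ≥ 0` (invariant under inversion) is bounded by the "Dirichlet mean value" of `p ↦ f (Frob_p)`.
[`I := Finset.univ.image f` (a finite set of reals), `T v := {x | f x = v}` stable under conjugation and inversion.  For `δ > 0`: `cheb G r hlev hsurj (T v) … S δ` gives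
`DirichletGe (fun p => p ∉ S ∧ FrobIn r (T v) p) (card (T v) / card G - δ)`.  `sum_le_of_dirichletGe_le I (fun v p => p ∉ S ∧ FrobIn r (T v) p) (fun v => card (T v) / card G - δ) id …` (with `ι = ℝ`, `v = id`,
`w p = v` on the `v`-th set by `hfrob`, `Q p = p ∉ S`): `∑_{v ∈ I} v (card (T v) / card G - δ) ≤ c` for all `δ > 0`, so (`le_of_forall_pos_le_add` or `δ → 0`) `∑_{v ∈ I} v card (T v) ≤ c card G`;
and `∑_x f x = ∑_{v ∈ I} v card (T v)` (`Finset.sum_fiberwise_of_maps_to` / `Finset.sum_comp`).] -/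
theorem sum_le_of_frob (cheb : ChebStatement) {G : Type} [Group G] [Fintype G] (r : GQ →* G)
    (hlev : GaloisFactorsThroughFiniteLevel r) (hsurj : Function.Surjective r) (f : G → ℝ)
    (hf0 : ∀ x, 0 ≤ f x) (hconj : ∀ g h : G, f (h * g * h⁻¹) = f g) (hinv : ∀ g : G, f g⁻¹ = f g)
    (S : Finset ℕ) (w : ℕ → ℝ)
    (hfrob : ∀ p : ℕ, p.Prime → p ∉ S → ∀ A : ValuationSubring Qb, A.LiesOverPrime p →
      ∀ σ : GQ, A.IsFrobeniusAt σ p → f (r σ) = w p)
    {c : ℝ} (hR : DirichletLe (fun p => p ∉ S) w c) :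
    ∑ x, f x ≤ c * Fintype.card G := by
  classical
  set I : Finset ℝ := Finset.univ.image f with hI
  set T : ℝ → Set G := fun v => {x | f x = v} with hT
  have hGpos : (0 : ℝ) < Fintype.card G := by exact_mod_cast Fintype.card_pos
  have hI0 : ∀ v ∈ I, 0 ≤ v := by
    intro v hv
    obtain ⟨x, -, rfl⟩ := Finset.mem_image.mp hv
    exact hf0 x
  have key : ∀ δ : ℝ, 0 < δ →
      ∑ v ∈ I, v * ((Nat.card (T v) : ℝ) / Nat.card G - δ) ≤ c := by
    intro δ hδ
    refine sum_le_of_dirichletGe_le I (fun v p => p ∉ S ∧ FrobIn r (T v) p)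
      (fun v => (Nat.card (T v) : ℝ) / Nat.card G - δ) id hI0 (Function.injective_id.injOn)
      ?_ w ?_ (fun p => p ∉ S) ?_ hR
    · intro v _
      refine cheb G r hlev hsurj (T v) ?_ ?_ S δ hδ
      · intro g h hg
        simp only [hT, Set.mem_setOf_eq] at hg ⊢
        rw [hconj, hg]
      · intro g hg
        simp only [hT, Set.mem_setOf_eq] at hg ⊢
        rw [hinv, hg]
    · rintro v _ p hp ⟨hpS, A, σ, hA, hσ, hmem⟩
      simp only [hT, Set.mem_setOf_eq] at hmem
      rw [← hfrob p hp hpS A hA σ hσ, hmem]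
      rfl
    · rintro v _ p _ ⟨hpS, -⟩
      exact hpS
  have hsum : ∑ x, f x = ∑ v ∈ I, v * (Nat.card (T v) : ℝ) := by
    rw [← Finset.sum_fiberwise_of_maps_to (s := Finset.univ) (t := I) (g := f)
      (fun x _ => Finset.mem_image_of_mem f (Finset.mem_univ x))]
    refine Finset.sum_congr rfl fun v _ => ?_
    rw [Finset.sum_congr rfl (g := fun _ => v) (fun x hx => (Finset.mem_filter.mp hx).2),
      Finset.sum_const, nsmul_eq_mul, mul_comm]
    congr 2
    rw [Nat.card_eq_fintype_card, Fintype.card_subtype]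
    rfl
  have hcard : (Nat.card G : ℝ) = Fintype.card G := by rw [Nat.card_eq_fintype_card]
  -- let `δ → 0`
  have h2 : ∑ v ∈ I, v * (Nat.card (T v) : ℝ) / Fintype.card G ≤ c := by
    apply le_of_forall_pos_le_add
    intro ε hε
    set s : ℝ := ∑ v ∈ I, v with hs
    have hs0 : 0 ≤ s := Finset.sum_nonneg hI0
    have hδ : 0 < ε / (s + 1) := by positivity
    have h3 := key _ hδ
    have h4 : ∑ v ∈ I, v * ((Nat.card (T v) : ℝ) / Nat.card G - ε / (s + 1)) =
        ∑ v ∈ I, v * (Nat.card (T v) : ℝ) / Fintype.card G - s * (ε / (s + 1)) := by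
      rw [hs, Finset.sum_mul, ← Finset.sum_sub_distrib]
      refine Finset.sum_congr rfl fun v _ => ?_
      rw [hcard]
      ring
    rw [h4] at h3
    have h5 : s * (ε / (s + 1)) ≤ ε := by
      rw [mul_div_assoc', div_le_iff₀ (by positivity)]
      nlinarith
    linarith
  rw [hsum]
  rw [← Finset.sum_div, div_le_iff₀ hGpos] at h2
  exact h2

end Fermat.Agent.S48.End
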