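import Fermat.Agent.S48.End.Defs

/-!
# S48-END, file `Count`: (S4) bounded image without Dickson
-/

set_option autoImplicit false

open scoped MatrixGroups

namespace Fermat.Agent.S48.End

variable {k G : Type*} [Field k] [Group G]

/-- [`Submodule.exists_fun_fin_finrank_span_eq` (or `exists_linearIndependent`) for the set `range ρ` in the `4`-dimensional space `M2 k`: at most `4` elements span; repeat one of them to get exactly `Fin 4`.] -/
theorem exists_spanning (ρ : G →* GL (Fin 2) k) :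
    ∃ γ : Fin 4 → G, Submodule.span k (Set.range fun i => ((ρ (γ i) : GL (Fin 2) k) : M2 k)) =
      Submodule.span k (Set.range fun g : G => ((ρ g : GL (Fin 2) k) : M2 k)) := by
  classical
  obtain ⟨f, hf, hspan, -⟩ := Submodule.exists_fun_fin_finrank_span_eq k
    (Set.range fun g : G => ((ρ g : GL (Fin 2) k) : M2 k))
  have hn : Module.finrank k (Submodule.span k
      (Set.range fun g : G => ((ρ g : GL (Fin 2) k) : M2 k))) ≤ 4 := by
    refine (Submodule.finrank_le _).trans ?_
    rw [Module.finrank_matrix]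
    simp
  choose g hg using hf
  refine ⟨fun i => if h : (i : ℕ) < Module.finrank k (Submodule.span k
      (Set.range fun g : G => ((ρ g : GL (Fin 2) k) : M2 k))) then g ⟨i, h⟩ else 1, ?_⟩
  apply le_antisymm
  · apply Submodule.span_mono
    rintro _ ⟨i, rfl⟩
    exact ⟨_, rfl⟩
  · refine hspan.symm.le.trans ?_
    apply Submodule.span_mono
    rintro _ ⟨j, rfl⟩
    refine ⟨⟨j, lt_of_lt_of_le j.2 hn⟩, ?_⟩
    simp only [j.2, dif_pos]
    exact hg j

/-- [`x = ρ g - ρ g'` is in the span; `tr (x ρ(γ i)) = 0` for all `i`, so `tr (x y) = 0` for all `y` in the span (linearity), in particular for `y = ρ h`; `TraceND`.] -/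
theorem eq_of_trace_eq (ρ : G →* GL (Fin 2) k) (hnd : TraceND ρ) (γ : Fin 4 → G)
    (hγ : Submodule.span k (Set.range fun i => ((ρ (γ i) : GL (Fin 2) k) : M2 k)) =
      Submodule.span k (Set.range fun g : G => ((ρ g : GL (Fin 2) k) : M2 k)))
    {g g' : G} (h : ∀ i, Matrix.trace ((ρ (g * γ i) : GL (Fin 2) k) : M2 k) =
      Matrix.trace ((ρ (g' * γ i) : GL (Fin 2) k) : M2 k)) : ρ g = ρ g' := by
  have hx : ((ρ g : GL (Fin 2) k) : M2 k) - ((ρ g' : GL (Fin 2) k) : M2 k) ∈
      Submodule.span k (Set.range fun g : G => ((ρ g : GL (Fin 2) k) : M2 k)) :=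
    Submodule.sub_mem _ (Submodule.subset_span ⟨g, rfl⟩) (Submodule.subset_span ⟨g', rfl⟩)
  have hle : Submodule.span k (Set.range fun i => ((ρ (γ i) : GL (Fin 2) k) : M2 k)) ≤
      LinearMap.ker ((Matrix.traceLinearMap (Fin 2) k k).comp (LinearMap.mulLeft k
        (((ρ g : GL (Fin 2) k) : M2 k) - ((ρ g' : GL (Fin 2) k) : M2 k)))) := by
    rw [Submodule.span_le]
    rintro _ ⟨i, rfl⟩
    have h1 := h i
    rw [map_mul, map_mul, Units.val_mul, Units.val_mul] at h1
    show Matrix.trace ((((ρ g : GL (Fin 2) k) : M2 k) - ((ρ g' : GL (Fin 2) k) : M2 k)) *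
      ((ρ (γ i) : GL (Fin 2) k) : M2 k)) = 0
    rw [sub_mul, Matrix.trace_sub, h1, sub_self]
  have h0 := hnd _ hx (fun h' => by
    have h2 : ((ρ h' : GL (Fin 2) k) : M2 k) ∈
        Submodule.span k (Set.range fun i => ((ρ (γ i) : GL (Fin 2) k) : M2 k)) := by
      rw [hγ]
      exact Submodule.subset_span ⟨h', rfl⟩
    exact hle h2)
  exact Units.ext (sub_eq_zero.mp h0)

/-- **(S4)**  [`γ` from `exists_spanning`.  `G' := {g | ∀ i, g * γ i ∈ H}`; its complement is the union of the four sets `{g | g * γ i ∉ H}`, each in bijection with `Hᶜ`: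
`card G'ᶜ ≤ 4 card Hᶜ ≤ card G / 2`.  `g ↦ (i ↦ tr ρ(g γ i)) : G' → (Fin 4 → Y)` is injective (`eq_of_trace_eq`, `hinj`): `card G' ≤ (card Y)^4`.] -/
theorem card_le_of_trace_values [Finite G] (ρ : G →* GL (Fin 2) k) (hinj : Function.Injective ρ)
    (hnd : TraceND ρ) (H : Set G) (hH : 8 * Nat.card (Hᶜ : Set G) ≤ Nat.card G) (Y : Finset k)
    (hY : ∀ g ∈ H, Matrix.trace ((ρ g : GL (Fin 2) k) : M2 k) ∈ Y) :
    Nat.card G ≤ 2 * Y.card ^ 4 := by
  classical
  have : Fintype G := Fintype.ofFinite G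
  obtain ⟨γ, hγ⟩ := exists_spanning ρ
  have hHc : Nat.card (Hᶜ : Set G) = (Finset.univ.filter fun g : G => g ∉ H).card := by
    rw [Nat.card_eq_fintype_card, Fintype.card_subtype]
    rfl
  have h1 : (Finset.univ.filter fun g : G => ∀ i, g * γ i ∈ H).card ≤ Y.card ^ 4 := by
    rw [← Fintype.card_piFinset_const Y 4]
    refine Finset.card_le_card_of_injOn
      (fun g i => Matrix.trace ((ρ (g * γ i) : GL (Fin 2) k) : M2 k)) ?_ ?_
    · intro g hg
      rw [Finset.mem_coe, Finset.mem_filter] at hg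
      rw [Finset.mem_coe, Fintype.mem_piFinset]
      exact fun i => hY _ (hg.2 i)
    · intro g _ g' _ hgg
      exact hinj (eq_of_trace_eq ρ hnd γ hγ fun i => congrFun hgg i)
  have h2 : (Finset.univ.filter fun g : G => ¬ ∀ i, g * γ i ∈ H).card ≤
      4 * (Finset.univ.filter fun g : G => g ∉ H).card := by
    have hsub : (Finset.univ.filter fun g : G => ¬ ∀ i, g * γ i ∈ H) ⊆
        (Finset.univ : Finset (Fin 4)).biUnion
          fun i => Finset.univ.filter fun g : G => g * γ i ∉ H := by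
      intro g hg
      rw [Finset.mem_filter] at hg
      obtain ⟨i, hi⟩ := not_forall.mp hg.2
      exact Finset.mem_biUnion.mpr ⟨i, Finset.mem_univ _, Finset.mem_filter.mpr ⟨Finset.mem_univ _, hi⟩⟩
    refine (Finset.card_le_card hsub).trans (Finset.card_biUnion_le.trans ?_)
    have h3 : ∀ i : Fin 4, (Finset.univ.filter fun g : G => g * γ i ∉ H).card =
        (Finset.univ.filter fun g : G => g ∉ H).card := by
      intro i
      refine Finset.card_equiv (Equiv.mulRight (γ i)) fun g => ?_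
      simp
    rw [Finset.sum_congr rfl fun i _ => h3 i, Finset.sum_const, Finset.card_univ, Fintype.card_fin,
      smul_eq_mul]
  have h4 := Finset.card_filter_add_card_filter_not (s := (Finset.univ : Finset G))
    (fun g : G => ∀ i, g * γ i ∈ H)
  rw [Finset.card_univ, ← Nat.card_eq_fintype_card] at h4
  rw [hHc] at hH
  omega

end Fermat.Agent.S48.End
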