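import Fermat.Agent.S48.End.Defs
import Fermat.Agent.GR.H.Cyc

/-!
# S48-END, file `Cyc`: the cyclotomic character modulo `N`
-/

set_option autoImplicit false

namespace Fermat.Agent.S48.End

/-- elements of the inertia group act trivially modulo the maximal ideal -/
theorem Cyc_inertia_sub_mem (A : ValuationSubring Qb) {σ : GQ}
    (hσ : σ ∈ A.inertiaSubgroupIn ℚ) {a : Qb} (ha : a ∈ A) : σ a - a ∈ A.nonunits := by
  obtain ⟨g, hg, rfl⟩ := Subgroup.mem_map.mp hσ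
  have h1 : MulSemiringAction.toRingAut (A.decompositionSubgroup ℚ)
      (IsLocalRing.ResidueField A) g = 1 := MonoidHom.mem_ker.mp hg
  have h2 : g • IsLocalRing.residue A ⟨a, ha⟩ = IsLocalRing.residue A ⟨a, ha⟩ := by
    have := congrArg (fun f => f (IsLocalRing.residue A ⟨a, ha⟩)) h1
    simpa using this
  rw [← IsLocalRing.ResidueField.residue_smul, ← sub_eq_zero, ← map_sub,
    IsLocalRing.residue_eq_zero_iff] at h2
  have h3 := ValuationSubring.coe_mem_nonunits_iff.mpr h2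
  exact h3

/-- the value of the cyclotomic character is determined by the action on `ζ` -/
theorem Cyc_autToPow_eq {N : ℕ} [NeZero N] {ζ : Qb} (hζ : IsPrimitiveRoot ζ N) (σ : GQ) (k : ℕ)
    (h : σ ζ = ζ ^ k) : ((hζ.autToPow ℚ σ : (ZMod N)ˣ) : ZMod N) = (k : ZMod N) := by
  have h1 := hζ.autToPow_spec ℚ σ
  have hfin : IsOfFinOrder ζ :=
    isOfFinOrder_iff_pow_eq_one.2 ⟨N, Nat.pos_of_ne_zero (NeZero.ne N), hζ.pow_eq_one⟩
  rw [h, hfin.pow_eq_pow_iff_modEq, ← hζ.eq_orderOf] at h1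
  have h2 := (ZMod.natCast_eq_natCast_iff _ _ _).2 h1
  rwa [ZMod.natCast_zmod_val] at h2

/-- [`ζ` a primitive `N`-th root of unity in `Qb` (`HasEnoughRootsOfUnity.exists_primitiveRoot`); `χ σ` is defined by `σ ζ = ζ ^ (χ σ).val` (`IsPrimitiveRoot.autToPow ℚ hζ`, or
`modularCyclotomicCharacter`).  Finite level: `L = ℚ(ζ)`.  Frobenius: `GR.H.frobenius_rootOfUnity`.  Inertia: for `σ` in the inertia group at `A` over `p ∤ N`,
`σ ζ - ζ ∈ A.nonunits` (definition of `inertiaSubgroupIn`: `σ` acts trivially on the residue field; compare the proof of `GR.H.Cyc_frobenius_sub_pow_mem`), so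
`σ ζ = ζ` by `GR.H.Cyc_eq_of_sub_mem`.] -/
theorem exists_cyclotomic (N : ℕ) [NeZero N] :
    ∃ χ : GQ →* (ZMod N)ˣ, GaloisFactorsThroughFiniteLevel χ ∧ UnramOutside (bad N) χ ∧
      ∀ p : ℕ, p.Prime → ¬ p ∣ N → ∀ A : ValuationSubring Qb, A.LiesOverPrime p →
        ∀ σ : GQ, A.IsFrobeniusAt σ p → ((χ σ : (ZMod N)ˣ) : ZMod N) = (p : ZMod N) := by
  obtain ⟨ζ, hζ⟩ := HasEnoughRootsOfUnity.exists_primitiveRoot Qb N
  have hN : 0 < N := Nat.pos_of_ne_zero (NeZero.ne N)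
  have hint : IsIntegral ℤ ζ := hζ.isIntegral hN
  have hone : ∀ σ : GQ, σ ζ = ζ → hζ.autToPow ℚ σ = 1 := by
    intro σ h
    apply Units.ext
    rw [Cyc_autToPow_eq hζ σ 1 (by rw [h, pow_one]), Nat.cast_one, Units.val_one]
  refine ⟨hζ.autToPow ℚ, ⟨IntermediateField.adjoin ℚ {ζ}, ?_, ?_⟩, ?_, ?_⟩
  · exact IntermediateField.adjoin.finiteDimensional (hint.tower_top)
  · intro σ h
    exact hone σ (h ζ (IntermediateField.mem_adjoin_simple_self ℚ ζ))
  · intro p hp hpN A hA σ hσ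
    have hpN' : ¬ p ∣ N := by
      intro hd
      exact hpN (Nat.mem_primeFactors.2 ⟨hp, hd, NeZero.ne N⟩)
    apply hone
    have hζA : ζ ∈ A := Fermat.Agent.Lib.Frobenius.isIntegral_mem A hint
    refine GR.H.Cyc_eq_of_sub_mem A p hp hA N hpN' _ _ ?_ hζ.pow_eq_one
      (Cyc_inertia_sub_mem A hσ hζA)
    rw [← map_pow, hζ.pow_eq_one, map_one]
  · intro p hp hpN A hA σ hσ
    exact Cyc_autToPow_eq hζ σ p
      (GR.H.frobenius_rootOfUnity A p hp hA σ hσ N hpN ζ hζ.pow_eq_one)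

end Fermat.Agent.S48.End
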