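import Fermat.Agent.S48.Iface

/-!
# S48-END (the Deligne-Serre endgame): definitions

Notation: `Qb = ℚ̄`, `GQ = Gal(ℚ̄/ℚ)`, `Λ` a valuation subring of `Qb`, `kk Λ` its residue field, `res Λ : Qb → kk Λ` (junk `0` outside `Λ`).
`M2 R` = `2 × 2` matrices.
-/

set_option autoImplicit false

open scoped MatrixGroups

namespace Fermat.Agent.S48.End

/-- `2 × 2` matrices -/
abbrev M2 (R : Type*) : Type _ := Matrix (Fin 2) (Fin 2) R

/-- the trace form is nondegenerate on the linear span of the image of `ρ` -/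
def TraceND {k G : Type*} [Field k] [Group G] (ρ : G →* GL (Fin 2) k) : Prop :=
  ∀ x ∈ Submodule.span k (Set.range fun g : G => ((ρ g : GL (Fin 2) k) : M2 k)),
    (∀ h : G, Matrix.trace (x * ((ρ h : GL (Fin 2) k) : M2 k)) = 0) → x = 0

/-- `r` is trivial on the inertia groups at the primes outside `S` -/
def UnramOutside {M : Type} [MulOneClass M] (S : Finset ℕ) (r : GQ →* M) : Prop :=
  ∀ p : ℕ, p.Prime → p ∉ S → ∀ A : ValuationSubring Qb, A.LiesOverPrime p →
    ∀ σ ∈ A.inertiaSubgroupIn ℚ, r σ = 1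

/-- trace and determinant of the Frobenius elements at the primes outside `S` -/
def FrobTD {R : Type} [CommRing R] (S : Finset ℕ) (t d : ℕ → R) (ρ : GQ →* GL (Fin 2) R) : Prop :=
  ∀ p : ℕ, p.Prime → p ∉ S → ∀ A : ValuationSubring Qb, A.LiesOverPrime p →
    ∀ σ : GQ, A.IsFrobeniusAt σ p →
      Matrix.trace ((ρ σ : GL (Fin 2) R) : M2 R) = t p ∧ Matrix.det ((ρ σ : GL (Fin 2) R) : M2 R) = d p

/-- the quadratic relations at the Frobenius elements outside `S` -/
def FrobQuad {k W : Type} [Field k] [AddCommGroup W] [Module k W] (S : Finset ℕ) (t d : ℕ → k)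
    (r : GQ →* Module.End k W) : Prop :=
  ∀ p : ℕ, p.Prime → p ∉ S → ∀ A : ValuationSubring Qb, A.LiesOverPrime p →
    ∀ σ : GQ, A.IsFrobeniusAt σ p →
      r σ * r σ - t p • r σ + d p • (1 : Module.End k W) = 0

/-- the primes dividing `n` -/
abbrev bad (n : ℕ) : Finset ℕ := n.primeFactors

/-- a mod `Λ` representation with the prescribed Frobenius traces and determinants outside `S` -/
structure IsModRep (S : Finset ℕ) (Λ : ValuationSubring Qb) (a d : ℕ → Qb)
    (ρb : GQ →* GL (Fin 2) (kk Λ)) : Prop where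
  level : GaloisFactorsThroughFiniteLevel ρb
  unram : UnramOutside S ρb
  frob : FrobTD S (fun p => res Λ (a p)) (fun p => res Λ (d p)) ρb
  nd : TraceND ρb

/-- a representation over `ℚ̄` with finite image and the prescribed Frobenius traces and determinants outside `S` -/
structure IsRep (S : Finset ℕ) (a d : ℕ → Qb) (ρ : GQ →* GL (Fin 2) Qb) : Prop where
  level : GaloisFactorsThroughFiniteLevel ρ
  unram : UnramOutside S ρ
  frob : FrobTD S a d ρ

end Fermat.Agent.S48.End
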