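import Fermat.Agent.S48.End.Defs

/-!
# S48-END, file `Dir`: calculus of `DirichletLe` / `DirichletGe`  (real analysis: only `log (1/(s-1)) → ∞` as `s → 1⁺`)
-/

set_option autoImplicit false

namespace Fermat.Agent.S48.End

/-- [`s = 1 + exp (-(|C| + 1))`.] -/
theorem exists_log_gt (C : ℝ) : ∃ s : ℝ, 1 < s ∧ s ≤ 2 ∧ C < Real.log (1 / (s - 1)) := by
  refine ⟨1 + Real.exp (-(|C| + 1)), ?_, ?_, ?_⟩
  · linarith [Real.exp_pos (-(|C| + 1))]
  · have : Real.exp (-(|C| + 1)) ≤ 1 := Real.exp_le_one_iff.mpr (by linarith [abs_nonneg C])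
    linarith
  · rw [add_sub_cancel_left, one_div, ← Real.exp_neg, Real.log_exp, neg_neg]
    linarith [le_abs_self C]

/-- [`0 ≤ log (1/(s-1))` on `(1,2]`.] -/
theorem log_nonneg' {s : ℝ} (h1 : 1 < s) (h2 : s ≤ 2) : 0 ≤ Real.log (1 / (s - 1)) := by
  apply Real.log_nonneg
  rw [le_div_iff₀ (by linarith)]
  linarith

/-- [if `(c - c') L ≤ C` for all the values `L = log (1/(s-1))` then `c ≤ c'` (`exists_log_gt`).] -/
theorem le_of_forall_log {c c' C : ℝ}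
    (h : ∀ s : ℝ, 1 < s → s ≤ 2 → c * Real.log (1 / (s - 1)) ≤ c' * Real.log (1 / (s - 1)) + C) :
    c ≤ c' := by
  by_contra hlt
  have hpos : 0 < c - c' := by linarith [not_le.mp hlt]
  obtain ⟨s, h1, h2, h3⟩ := exists_log_gt (C / (c - c'))
  have h4 := h s h1 h2
  rw [div_lt_iff₀ hpos] at h3
  nlinarith

theorem DirichletLe.mono {P P' : ℕ → Prop} {w : ℕ → ℝ} {c : ℝ} (h : DirichletLe P w c)
    (hP : ∀ p : ℕ, p.Prime → P' p → P p) : DirichletLe P' w c := by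
  obtain ⟨C, hC⟩ := h
  exact ⟨C, fun s h1 h2 F hF => hC s h1 h2 F fun p hp => ⟨(hF p hp).1, hP p (hF p hp).1 (hF p hp).2⟩⟩

/-- [termwise, `0 ≤ p^(-s)`.] -/
theorem DirichletLe.of_le {P : ℕ → Prop} {w w' : ℕ → ℝ} {c : ℝ} (h : DirichletLe P w c)
    (hw : ∀ p : ℕ, p.Prime → P p → w' p ≤ w p) : DirichletLe P w' c := by
  obtain ⟨C, hC⟩ := h
  refine ⟨C, fun s h1 h2 F hF => le_trans ?_ (hC s h1 h2 F hF)⟩
  refine Finset.sum_le_sum fun p hp => ?_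
  exact mul_le_mul_of_nonneg_right (hw p (hF p hp).1 (hF p hp).2)
    (Real.rpow_nonneg (Nat.cast_nonneg _) _)

theorem DirichletLe.sum {ι : Type*} (I : Finset ι) {P : ℕ → Prop} (w : ι → ℕ → ℝ) (c : ι → ℝ)
    (h : ∀ i ∈ I, DirichletLe P (w i) (c i)) :
    DirichletLe P (fun p => ∑ i ∈ I, w i p) (∑ i ∈ I, c i) := by
  have h' : ∀ i ∈ I, ∃ C : ℝ, ∀ s : ℝ, 1 < s → s ≤ 2 → ∀ F : Finset ℕ,
      (∀ p ∈ F, p.Prime ∧ P p) →
      ∑ p ∈ F, w i p * (p : ℝ) ^ (-s) ≤ c i * Real.log (1 / (s - 1)) + C := h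
  choose! C hC using h'
  refine ⟨∑ i ∈ I, C i, fun s h1 h2 F hF => ?_⟩
  have e1 : ∑ p ∈ F, (∑ i ∈ I, w i p) * (p : ℝ) ^ (-s) =
      ∑ i ∈ I, ∑ p ∈ F, w i p * (p : ℝ) ^ (-s) := by
    rw [Finset.sum_comm]
    exact Finset.sum_congr rfl fun p _ => Finset.sum_mul _ _ _
  rw [e1, Finset.sum_mul, ← Finset.sum_add_distrib]
  exact Finset.sum_le_sum fun i hi => hC i hi s h1 h2 F hF

theorem DirichletLe.div_const {P : ℕ → Prop} {w : ℕ → ℝ} {c κ : ℝ} (hκ : 0 < κ)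
    (h : DirichletLe P (fun p => κ * w p) c) : DirichletLe P w (c / κ) := by
  obtain ⟨C, hC⟩ := h
  refine ⟨C / κ, fun s h1 h2 F hF => ?_⟩
  have h3 := hC s h1 h2 F hF
  have e1 : ∑ p ∈ F, κ * w p * (p : ℝ) ^ (-s) = κ * ∑ p ∈ F, w p * (p : ℝ) ^ (-s) := by
    rw [Finset.mul_sum]
    exact Finset.sum_congr rfl fun p _ => mul_assoc _ _ _
  rw [e1] at h3
  have e2 : c / κ * Real.log (1 / (s - 1)) + C / κ = (c * Real.log (1 / (s - 1)) + C) / κ := by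
    ring
  rw [e2, le_div_iff₀ hκ, mul_comm]
  exact h3

/-- **comparison**: a set of primes of lower density `≥ c` contained in a set of upper density `≤ c'`. -/
theorem le_of_dirichletGe_le {P P' : ℕ → Prop} {c c' : ℝ} (h1 : DirichletGe P c)
    (h2 : DirichletLe P' (fun _ => 1) c') (h : ∀ p : ℕ, p.Prime → P p → P' p) : c ≤ c' := by
  obtain ⟨B, hB⟩ := h1
  obtain ⟨C, hC⟩ := h2
  refine le_of_forall_log (C := C + B) fun s hs1 hs2 => ?_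
  obtain ⟨F, hF, hle⟩ := hB s hs1 hs2
  have h3 := hC s hs1 hs2 F fun p hp => ⟨(hF p hp).1, h p (hF p hp).1 (hF p hp).2⟩
  simp only [one_mul] at h3
  linarith

/-- [for `s` close to `1` the finite set `F` has positive sum, so it is nonempty.] -/
theorem exists_prime_of_dirichletGe {P : ℕ → Prop} {c : ℝ} (hc : 0 < c) (h : DirichletGe P c) :
    ∃ p : ℕ, p.Prime ∧ P p := by
  obtain ⟨B, hB⟩ := h
  obtain ⟨s, h1, h2, h3⟩ := exists_log_gt (B / c)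
  obtain ⟨F, hF, hle⟩ := hB s h1 h2
  rw [div_lt_iff₀ hc] at h3
  have hpos : 0 < ∑ p ∈ F, (p : ℝ) ^ (-s) := by nlinarith
  have hne : F.Nonempty := by
    rw [Finset.nonempty_iff_ne_empty]
    rintro rfl
    simp at hpos
  obtain ⟨p, hp⟩ := hne
  exact ⟨p, hF p hp⟩

/-- **weighted comparison.**  [For `s ∈ (1,2]` choose `F i` for `i ∈ I` (`hge`), `F := I.biUnion F`.  The `F i` are pairwise disjoint: `p ∈ F i ∩ F j` gives
`v i = w p = v j`, `i = j` (`hinj`).  So `∑_{p ∈ F} w p p^(-s) = ∑_i v i ∑_{p ∈ F i} p^(-s) ≥ ∑_i v i (c i L - B i)` and it is `≤ c' L + C`.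
`le_of_forall_log`.] -/
theorem sum_le_of_dirichletGe_le {ι : Type*} [DecidableEq ι] (I : Finset ι) (P : ι → ℕ → Prop) (c v : ι → ℝ)
    (hv : ∀ i ∈ I, 0 ≤ v i) (hinj : Set.InjOn v I) (hge : ∀ i ∈ I, DirichletGe (P i) (c i))
    (w : ℕ → ℝ) (hw : ∀ i ∈ I, ∀ p : ℕ, p.Prime → P i p → w p = v i)
    (Q : ℕ → Prop) (hQ : ∀ i ∈ I, ∀ p : ℕ, p.Prime → P i p → Q p) {c' : ℝ}
    (hle : DirichletLe Q w c') : ∑ i ∈ I, v i * c i ≤ c' := by
  have hge' : ∀ i ∈ I, ∃ B : ℝ, ∀ s : ℝ, 1 < s → s ≤ 2 → ∃ F : Finset ℕ,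
      (∀ p ∈ F, p.Prime ∧ P i p) ∧
      c i * Real.log (1 / (s - 1)) - B ≤ ∑ p ∈ F, (p : ℝ) ^ (-s) := hge
  choose! B hB using hge'
  obtain ⟨C, hC⟩ := hle
  refine le_of_forall_log (C := C + ∑ i ∈ I, v i * B i) fun s h1 h2 => ?_
  have hF' : ∀ i ∈ I, ∃ F : Finset ℕ, (∀ p ∈ F, p.Prime ∧ P i p) ∧
      c i * Real.log (1 / (s - 1)) - B i ≤ ∑ p ∈ F, (p : ℝ) ^ (-s) :=
    fun i hi => hB i hi s h1 h2
  choose! F hF hFle using hF'
  have hdisj : Set.PairwiseDisjoint (I : Set ι) F := by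
    intro i hi j hj hij
    rw [Function.onFun, Finset.disjoint_left]
    intro p hpi hpj
    apply hij
    apply hinj hi hj
    rw [← hw i hi p (hF i hi p hpi).1 (hF i hi p hpi).2,
      ← hw j hj p (hF j hj p hpj).1 (hF j hj p hpj).2]
  have h3 := hC s h1 h2 (I.biUnion F) (by
    intro p hp
    obtain ⟨i, hi, hpi⟩ := Finset.mem_biUnion.mp hp
    exact ⟨(hF i hi p hpi).1, hQ i hi p (hF i hi p hpi).1 (hF i hi p hpi).2⟩)
  rw [Finset.sum_biUnion hdisj] at h3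
  have h4 : ∑ i ∈ I, v i * (c i * Real.log (1 / (s - 1)) - B i) ≤
      ∑ i ∈ I, ∑ p ∈ F i, w p * (p : ℝ) ^ (-s) := by
    refine Finset.sum_le_sum fun i hi => ?_
    have e1 : ∑ p ∈ F i, w p * (p : ℝ) ^ (-s) = v i * ∑ p ∈ F i, (p : ℝ) ^ (-s) := by
      rw [Finset.mul_sum]
      exact Finset.sum_congr rfl fun p hp => by rw [hw i hi p (hF i hi p hp).1 (hF i hi p hp).2]
    rw [e1]
    exact mul_le_mul_of_nonneg_left (hFle i hi) (hv i hi)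
  have e2 : ∑ i ∈ I, v i * (c i * Real.log (1 / (s - 1)) - B i) =
      (∑ i ∈ I, v i * c i) * Real.log (1 / (s - 1)) - ∑ i ∈ I, v i * B i := by
    rw [Finset.sum_mul, ← Finset.sum_sub_distrib]
    exact Finset.sum_congr rfl fun i _ => by ring
  rw [e2] at h4
  linarith

end Fermat.Agent.S48.End
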