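import Fermat.Agent.S48.End.QuadRep
import Fermat.Agent.S48.End.ChebEx
import Fermat.Agent.S48.End.Cyc
import Fermat.Agent.S48.End.Res

/-!
# S48-END, file `ModRep`: from `HasQuadModule` to a semisimple representation `GQ → GL₂(kk Λ)`
-/

set_option autoImplicit false

open scoped MatrixGroups

namespace Fermat.Agent.S48.End

/-- the reduction of a Dirichlet character with values in `ℚ̄`.  [`x ↦ res Λ (e x)` is multiplicative on units (`res_mul`, values are roots of unity: `mem_of_pow_eq_one`, `(e x)^φ(N) = 1`);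
`MonoidHom.toHomUnits`.] -/
theorem exists_resChar (Λ : ValuationSubring Qb) {N : ℕ} [NeZero N] (e : DirichletCharacter Qb N) :
    ∃ eb : (ZMod N)ˣ →* (kk Λ)ˣ, ∀ x : (ZMod N)ˣ, ((eb x : (kk Λ)ˣ) : kk Λ) = res Λ (e (x : ZMod N)) := by
  have hmem : ∀ x : (ZMod N)ˣ, e (x : ZMod N) ∈ Λ := by
    intro x
    refine (mem_of_pow_eq_one Λ (Nat.totient_pos.2 (Nat.pos_of_ne_zero (NeZero.ne N))) ?_).1
    rw [← map_pow, ← Units.val_pow_eq_pow_val, ZMod.pow_totient, Units.val_one, map_one]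
  let f : (ZMod N)ˣ →* kk Λ :=
    { toFun := fun x => res Λ (e (x : ZMod N))
      map_one' := by rw [Units.val_one, map_one, res_one]
      map_mul' := fun x y => by
        rw [Units.val_mul, map_mul, res_mul Λ (hmem x) (hmem y)] }
  exact ⟨MonoidHom.toHomUnits f, fun x => rfl⟩

/-- conjugating a quadratic relation. -/
theorem ModRep_conj {k A : Type*} [Field k] [Ring A] [Algebra k A] {X H H' : A} {t c : k}
    (h1 : H' * H = 1) (h2 : H * H' = 1)
    (h : (H * X * H') * (H * X * H') - t • (H * X * H') + c • (1 : A) = 0) :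
    X * X - t • X + c • (1 : A) = 0 := by
  set Y := H * X * H' with hY
  have e1 : H' * Y * H = X := by
    rw [hY]
    simp only [mul_assoc]
    rw [h1, mul_one, ← mul_assoc, h1, one_mul]
  have e2 : H' * (Y * Y) * H = X * X := by
    calc H' * (Y * Y) * H = (H' * Y * H) * (H' * Y * H) := by
          simp only [mul_assoc]
          rw [← mul_assoc H H', h2, one_mul]
      _ = X * X := by rw [e1]
  have e3 := congrArg (fun Z => H' * Z * H) h
  simp only [mul_add, mul_sub, add_mul, sub_mul, mul_smul_comm, smul_mul_assoc, mul_one, e1, e2,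
    h1, mul_zero, zero_mul] at e3
  exact e3

/-- conjugation and inversion preserve quadratic relations.
[(1) `r (h g h⁻¹) = r h * r g * r h⁻¹`; conjugate the relation.  (2) if `y = x⁻¹` (`x y = 1 = y x`) and `y² - t y + d = 0`, `d ≠ 0`, multiply by `d⁻¹ x²`: `x² - (t/d) x + 1/d = 0`.] -/
theorem quad_transfer {k W : Type*} [Field k] [AddCommGroup W] [Module k W] {G : Type*} [Group G]
    (r : G →* Module.End k W) (d : G →* kˣ) {σ g h : G} {t : k}
    (hσ : r σ * r σ - t • r σ + (d σ : k) • (1 : Module.End k W) = 0)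
    (hr : (r σ = r (h * g * h⁻¹) ∧ d σ = d (h * g * h⁻¹)) ∨
      (r σ = r (h * g⁻¹ * h⁻¹) ∧ d σ = d (h * g⁻¹ * h⁻¹))) :
    ∃ t' : k, r g * r g - t' • r g + (d g : k) • (1 : Module.End k W) = 0 := by
  have h1 : r h⁻¹ * r h = 1 := by rw [← map_mul, inv_mul_cancel, map_one]
  have h2 : r h * r h⁻¹ = 1 := by rw [← map_mul, mul_inv_cancel, map_one]
  have hd : ∀ x : G, d (h * x * h⁻¹) = d x := by
    intro x
    rw [map_mul, map_mul, map_inv, mul_comm (d h), mul_assoc, mul_inv_cancel, mul_one]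
  rcases hr with ⟨hr1, hr2⟩ | ⟨hr1, hr2⟩
  · refine ⟨t, ?_⟩
    rw [hr1, hr2, hd, map_mul, map_mul] at hσ
    exact ModRep_conj h1 h2 hσ
  · refine ⟨(d g : k) * t, ?_⟩
    rw [hr1, hr2, hd, map_mul, map_mul] at hσ
    have h3 := ModRep_conj h1 h2 hσ
    have hxy : r g * r g⁻¹ = 1 := by rw [← map_mul, mul_inv_cancel, map_one]
    have e1 : r g * r g * (r g⁻¹ * r g⁻¹) = 1 := by
      rw [mul_assoc, ← mul_assoc (r g) (r g⁻¹), hxy, one_mul, hxy]
    have e2 : r g * r g * r g⁻¹ = r g := by rw [mul_assoc, hxy, mul_one]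
    have e3 := congrArg (fun Z => (d g : k) • (r g * r g * Z)) h3
    simp only [mul_add, mul_sub, mul_smul_comm, mul_one, e1, e2, mul_zero, smul_zero, smul_add,
      smul_sub, smul_smul] at e3
    have hc : (d g : k) * ((d g⁻¹ : kˣ) : k) = 1 := by
      rw [map_inv, Units.mul_inv]
    rw [hc, one_smul] at e3
    rw [← e3]
    abel

/-- **(A)**  [`χ` from `exists_cyclotomic N`, `eb` from `exists_resChar`, `d := eb.comp χ`.  `W, r` from `h`.  For a Frobenius `σ` at `p ∤ N ℓ`: `(d σ : kk Λ) = res Λ (e p)`, so the relation of `h` reads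
`r σ² - res (a p) r σ + d σ = 0`.  For every `g`: `exists_frob_conj cheb (r' := (toUnits-version of r).prod χ)` — to have a GROUP as target use `R : GQ →* (Module.End k W)ˣ` (`MonoidHom.toHomUnits r`) and `R.prod χ`, of finite level by `level_prod`, `level_of_ker` —
with `S = bad (N * ℓ)`, then `quad_transfer`: there is `t g` with the relation.  `exists_rep_of_quad` (`isAlgClosed_kk`, `(2 : kk Λ) ≠ 0` by `charP_kk`, `ℓ ≠ 2`) gives `ρb`.
`level`: `level_of_ker` from `R.prod χ`.  `unram`: `unram_of_ker`, inertia at `p ∤ N ℓ` is killed by `r` (from `h`) and by `χ`.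
`frob`: `tr ρb(σ) = t σ` and `t σ = res (a p)` because two relations with the same `d` differ by `(t - t') r σ = 0`, `r σ` invertible, `W` nontrivial.] -/
theorem exists_isModRep (cheb : ChebStatement) (N : ℕ) [NeZero N] (a : ℕ → Qb)
    (e : DirichletCharacter Qb N) {ℓ : ℕ} (hℓ : ℓ.Prime) (hℓ2 : ℓ ≠ 2) (Λ : ValuationSubring Qb)
    (hΛ : Λ.LiesOverPrime ℓ) (h : HasQuadModule N ℓ Λ a (fun p => e (p : ZMod N))) :
    ∃ ρb : GQ →* GL (Fin 2) (kk Λ), IsModRep (bad (N * ℓ)) Λ a (fun p => e (p : ZMod N)) ρb := by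
  obtain ⟨W, iA, iM, iF, iN, r, hrlev, hr⟩ := h
  obtain ⟨χ, hχlev, hχunr, hχfrob⟩ := exists_cyclotomic N
  obtain ⟨eb, heb⟩ := exists_resChar Λ e
  let d : GQ →* (kk Λ)ˣ := eb.comp χ
  have hd : ∀ σ, d σ = eb (χ σ) := fun _ => rfl
  let R : GQ →* (Module.End (kk Λ) W)ˣ := MonoidHom.toHomUnits r
  have hR : ∀ σ, ((R σ : (Module.End (kk Λ) W)ˣ) : Module.End (kk Λ) W) = r σ := fun _ => rfl
  have hRlev : GaloisFactorsThroughFiniteLevel R :=
    level_of_ker r R hrlev (fun σ hσ => Units.ext (by rw [hR, hσ, Units.val_one]))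
  have hRχlev : GaloisFactorsThroughFiniteLevel (R.prod χ) := level_prod R χ hRlev hχlev
  have hNℓ : N * ℓ ≠ 0 := mul_ne_zero (NeZero.ne N) hℓ.ne_zero
  have hbad : ∀ p : ℕ, p.Prime → p ∉ bad (N * ℓ) → ¬ p ∣ N * ℓ :=
    fun p hp hpb hdv => hpb (Nat.mem_primeFactors.2 ⟨hp, hdv, hNℓ⟩)
  -- the relation at the Frobenius elements
  have hfrobrel : ∀ p : ℕ, p.Prime → p ∉ bad (N * ℓ) → ∀ A : ValuationSubring Qb,
      A.LiesOverPrime p → ∀ σ : GQ, A.IsFrobeniusAt σ p →
      ((d σ : (kk Λ)ˣ) : kk Λ) = res Λ (e (p : ZMod N)) ∧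
      r σ * r σ - res Λ (a p) • r σ +
        ((d σ : (kk Λ)ˣ) : kk Λ) • (1 : Module.End (kk Λ) W) = 0 := by
    intro p hp hpb A hA σ hσ
    have hpN : ¬ p ∣ N := fun hdv => hbad p hp hpb (hdv.mul_right ℓ)
    have h1 : ((d σ : (kk Λ)ˣ) : kk Λ) = res Λ (e (p : ZMod N)) := by
      rw [hd, heb, hχfrob p hp hpN A hA σ hσ]
    refine ⟨h1, ?_⟩
    rw [h1]
    exact (hr p hp (hbad p hp hpb) A hA).2 σ hσ
  -- a relation for every `g`
  have hex : ∀ g : GQ, ∃ t : kk Λ, r g * r g - t • r g +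
      ((d g : (kk Λ)ˣ) : kk Λ) • (1 : Module.End (kk Λ) W) = 0 := by
    intro g
    obtain ⟨p, A, σ, h, hp, hpS, hA, hσ, hconj⟩ :=
      exists_frob_conj cheb (R.prod χ) hRχlev (bad (N * ℓ)) g
    have key : ∀ x : GQ, (R.prod χ) σ = (R.prod χ) x → r σ = r x ∧ d σ = d x := by
      intro x hx
      have h1 : R σ = R x := congrArg Prod.fst hx
      have h2 : χ σ = χ x := congrArg Prod.snd hx
      exact ⟨by rw [← hR, ← hR, h1], by rw [hd, hd, h2]⟩
    exact quad_transfer r d (σ := σ) (g := g) (h := h) (hfrobrel p hp hpS A hA σ hσ).2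
      (hconj.imp (key _) (key _))
  choose t ht using hex
  have hac : IsAlgClosed (kk Λ) := isAlgClosed_kk Λ
  have hchar : CharP (kk Λ) ℓ := charP_kk hℓ hΛ
  have h2 : (2 : kk Λ) ≠ 0 := by
    intro h0
    have h3 : ((2 : ℕ) : kk Λ) = 0 := by exact_mod_cast h0
    rw [CharP.cast_eq_zero_iff (kk Λ) ℓ] at h3
    exact hℓ2 ((Nat.prime_dvd_prime_iff_eq hℓ Nat.prime_two).1 h3)
  obtain ⟨ρb, hρtd, hρnd, hρker⟩ := exists_rep_of_quad h2 r d t ht
  refine ⟨ρb, ⟨?_, ?_, ?_, hρnd⟩⟩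
  · -- level
    refine level_of_ker (R.prod χ) ρb hRχlev (fun σ hσ => ?_)
    have h1 : R σ = 1 := congrArg Prod.fst hσ
    have h3 : χ σ = 1 := congrArg Prod.snd hσ
    exact hρker σ (by rw [← hR, h1, Units.val_one]) (by rw [hd, h3, map_one])
  · -- unramified
    intro p hp hpS A hA σ hσ
    have hpN : p ∉ bad N :=
      fun hm => hbad p hp hpS ((Nat.mem_primeFactors.1 hm).2.1.mul_right ℓ)
    refine hρker σ ((hr p hp (hbad p hp hpS) A hA).1 σ hσ) ?_
    rw [hd, hχunr p hp hpN A hA σ hσ, map_one]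
  · -- Frobenius
    intro p hp hpS A hA σ hσ
    obtain ⟨h1, h3⟩ := hfrobrel p hp hpS A hA σ hσ
    refine ⟨?_, by rw [(hρtd σ).2, h1]⟩
    rw [(hρtd σ).1]
    have h4 : (t σ - res Λ (a p)) • r σ = 0 := by
      have h5 : (t σ - res Λ (a p)) • r σ =
          (r σ * r σ - res Λ (a p) • r σ +
            ((d σ : (kk Λ)ˣ) : kk Λ) • (1 : Module.End (kk Λ) W)) -
          (r σ * r σ - t σ • r σ +
            ((d σ : (kk Λ)ˣ) : kk Λ) • (1 : Module.End (kk Λ) W)) := by
        rw [sub_smul]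
        abel
      rw [h5, h3, ht σ, sub_zero]
    have h6 : (t σ - res Λ (a p)) • (1 : Module.End (kk Λ) W) = 0 := by
      have h7 : r σ * r σ⁻¹ = 1 := by rw [← map_mul, mul_inv_cancel, map_one]
      rw [← h7, ← smul_mul_assoc, h4, zero_mul]
    obtain ⟨w, hw⟩ := exists_ne (0 : W)
    have h8 : (t σ - res Λ (a p)) • w = 0 := by
      have h9 := congrArg (fun f : Module.End (kk Λ) W => f w) h6
      simpa using h9
    rcases smul_eq_zero.1 h8 with h9 | h9
    · exact sub_eq_zero.1 h9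
    · exact absurd h9 hw

end Fermat.Agent.S48.End
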