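import Fermat.Agent.S48.End.Defs
import Fermat.Agent.Lib.Frobenius

/-!
# S48-END, file `Zero`: a nonzero algebraic number is a unit at almost all places
-/

set_option autoImplicit false

namespace Fermat.Agent.S48.End

/-- [`x` is a root of a nonzero `P ∈ ℤ[X]`; dividing by a power of `X` we may assume `c₀ = P(0) ≠ 0` (e.g. `P` = `minpoly ℚ x` cleared of denominators: `IsLocalization.integerNormalization`, its constant
coefficient is `≠ 0` because `x ≠ 0` and `minpoly` is irreducible; or: `x⁻¹` is algebraic, `m x⁻¹` integral over `ℤ` for some `m ≠ 0` (`exists_integral_multiple`), so `m x⁻¹ ∈ Λ`; if `x ∈ Λ.nonunits` then `m = x (m x⁻¹) ∈ Λ.nonunits`, so `ℓ ∣ m`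
(`Lib.Frobenius.intCast_not_mem_nonunits`); `B := |m|`).] -/
theorem exists_bound_not_mem_nonunits {x : Qb} (hx : x ≠ 0) :
    ∃ B : ℕ, ∀ ℓ : ℕ, ℓ.Prime → B < ℓ → ∀ Λ : ValuationSubring Qb, Λ.LiesOverPrime ℓ →
      x ∉ Λ.nonunits := by
  have halg : IsAlgebraic ℤ (x⁻¹) := by
    have hQ : Algebra.IsAlgebraic ℚ Qb := AlgebraicClosure.isAlgebraic ℚ
    have := Algebra.IsAlgebraic.isAlgebraic (R := ℚ) (x⁻¹)
    exact (IsFractionRing.isAlgebraic_iff ℤ ℚ Qb).mpr this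
  obtain ⟨m, hm0, hm⟩ := halg.exists_integral_multiple
  refine ⟨m.natAbs, fun ℓ hℓ hB Λ hΛ hxΛ => ?_⟩
  have h1 : m • x⁻¹ ∈ Λ := Lib.Frobenius.isIntegral_mem Λ hm
  have h2 : x * (m • x⁻¹) ∈ Λ.nonunits := Lib.Frobenius.nonunits_mul Λ hxΛ h1
  have h3 : x * (m • x⁻¹) = (m : Qb) := by
    rw [zsmul_eq_mul]
    field_simp
  rw [h3] at h2
  have h4 : ¬ (ℓ : ℤ) ∣ m := by
    intro hd
    have h5 : ℓ ∣ m.natAbs := Int.natCast_dvd.1 hd
    have h6 : ℓ ≤ m.natAbs := Nat.le_of_dvd (Int.natAbs_pos.2 hm0) h5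
    omega
  exact Lib.Frobenius.intCast_not_mem_nonunits Λ hℓ hΛ h4 h2

/-- [induction on the finite set / `Finset.sup` of the bounds.] -/
theorem exists_bound_finset (Y : Finset Qb) :
    ∃ B : ℕ, ∀ ℓ : ℕ, ℓ.Prime → B < ℓ → ∀ Λ : ValuationSubring Qb, Λ.LiesOverPrime ℓ →
      ∀ x ∈ Y, x ∈ Λ.nonunits → x = 0 := by
  classical
  induction Y using Finset.induction_on with
  | empty => exact ⟨0, fun ℓ _ _ Λ _ x hx => absurd hx (Finset.notMem_empty x)⟩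
  | insert a s _ ih =>
    obtain ⟨B, hB⟩ := ih
    by_cases ha : a = 0
    · refine ⟨B, fun ℓ hℓ hlt Λ hΛ x hx hxΛ => ?_⟩
      rcases Finset.mem_insert.1 hx with rfl | hx
      · exact ha
      · exact hB ℓ hℓ hlt Λ hΛ x hx hxΛ
    · obtain ⟨B', hB'⟩ := exists_bound_not_mem_nonunits ha
      refine ⟨max B B', fun ℓ hℓ hlt Λ hΛ x hx hxΛ => ?_⟩
      rcases Finset.mem_insert.1 hx with rfl | hx
      · exact absurd hxΛ (hB' ℓ hℓ (lt_of_le_of_lt (le_max_right _ _) hlt) Λ hΛ)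
      · exact hB ℓ hℓ (lt_of_le_of_lt (le_max_left _ _) hlt) Λ hΛ x hx hxΛ

/-- two elements of a finite set `Y ⊆ Qb × Qb` which are congruent modulo `Λ` are equal, for `ℓ` large.  [`exists_bound_finset` for the set of all differences of coordinates.] -/
theorem exists_bound_pairs {Y : Set (Qb × Qb)} (hY : Y.Finite) :
    ∃ B : ℕ, ∀ ℓ : ℕ, ℓ.Prime → B < ℓ → ∀ Λ : ValuationSubring Qb, Λ.LiesOverPrime ℓ →
      ∀ y ∈ Y, ∀ y' ∈ Y, y.1 - y'.1 ∈ Λ.nonunits → y.2 - y'.2 ∈ Λ.nonunits → y = y' := by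
  classical
  let T : Finset (Qb × Qb) := hY.toFinset
  let Z : Finset Qb := (T ×ˢ T).image (fun p => p.1.1 - p.2.1) ∪
    (T ×ˢ T).image (fun p => p.1.2 - p.2.2)
  obtain ⟨B, hB⟩ := exists_bound_finset Z
  refine ⟨B, fun ℓ hℓ hlt Λ hΛ y hy y' hy' h1 h2 => ?_⟩
  have hyT : (y, y') ∈ T ×ˢ T :=
    Finset.mem_product.2 ⟨hY.mem_toFinset.2 hy, hY.mem_toFinset.2 hy'⟩
  have hz1 : y.1 - y'.1 ∈ Z :=
    Finset.mem_union_left _ (Finset.mem_image.2 ⟨(y, y'), hyT, rfl⟩)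
  have hz2 : y.2 - y'.2 ∈ Z :=
    Finset.mem_union_right _ (Finset.mem_image.2 ⟨(y, y'), hyT, rfl⟩)
  have e1 := hB ℓ hℓ hlt Λ hΛ _ hz1 h1
  have e2 := hB ℓ hℓ hlt Λ hΛ _ hz2 h2
  exact Prod.ext (sub_eq_zero.1 e1) (sub_eq_zero.1 e2)

end Fermat.Agent.S48.End
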