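import Fermat.Agent.S48.End.ModRep
import Fermat.Agent.S48.End.Bound
import Fermat.Agent.S48.End.Lift.Main
import Fermat.Agent.S48.End.Zero

/-!
# S48-END, file `Pigeon`: for all large `ℓ` there is a representation over `ℚ̄` with the right Frobenius traces outside `N ℓ`
-/

set_option autoImplicit false

open scoped MatrixGroups

namespace Fermat.Agent.S48.End

/-- the values of a Dirichlet character at the primes not dividing the level are roots of unity -/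
theorem Pigeon_char_pow {N : ℕ} [NeZero N] (e : DirichletCharacter Qb N) {p : ℕ} (hp : p.Prime)
    (hpN : ¬ p ∣ N) : e (p : ZMod N) ^ N.totient = 1 := by
  have hcop : p.Coprime N := (Nat.Prime.coprime_iff_not_dvd hp).mpr hpN
  have hu : IsUnit (p : ZMod N) := (ZMod.isUnit_iff_coprime p N).mpr hcop
  obtain ⟨u, hu⟩ := hu
  rw [← hu, ← map_pow, ← Units.val_pow_eq_pow_val, ZMod.pow_totient, Units.val_one, map_one]

theorem Pigeon_not_mem_bad {N ℓ p : ℕ} (hp : p.Prime) (hℓ : ℓ.Prime) (hpN : ¬ p ∣ N) (hpℓ : p ≠ ℓ) :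
    p ∉ bad (N * ℓ) := by
  intro h
  have h1 := Nat.dvd_of_mem_primeFactors h
  rcases (Nat.Prime.dvd_mul hp).mp h1 with h2 | h2
  · exact hpN h2
  · exact hpℓ ((Nat.prime_dvd_prime_iff_eq hp hℓ).mp h2)

theorem Pigeon_not_dvd_of_not_mem_bad {N ℓ p : ℕ} [NeZero N] (hp : p.Prime) (hℓ : ℓ.Prime)
    (h : p ∉ bad (N * ℓ)) : ¬ p ∣ N := by
  intro h1
  exact h (Nat.mem_primeFactors.mpr ⟨hp, Dvd.dvd.mul_right h1 ℓ,
    Nat.mul_ne_zero (NeZero.ne N) hℓ.ne_zero⟩)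

/-- the lifted representation, congruent to the data modulo `Λ` -/
theorem Pigeon_exists_lift_rep (cheb : ChebStatement) (N : ℕ) [NeZero N] (X : ArithData N) :
    ∃ B n : ℕ, 0 < n ∧ X.D < B ∧ ∀ ℓ : ℕ, ℓ.Prime → B < ℓ → ∀ Λ : ValuationSubring Qb, Λ.LiesOverPrime ℓ →
      ∃ ρ : GQ →* GL (Fin 2) Qb, GaloisFactorsThroughFiniteLevel ρ ∧ UnramOutside (bad (N * ℓ)) ρ ∧
        (∀ g, ((ρ g : GL (Fin 2) Qb) : M2 Qb) ^ n = 1) ∧
        ∀ p : ℕ, p.Prime → p ∉ bad (N * ℓ) → ∀ A : ValuationSubring Qb, A.LiesOverPrime p →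
          ∀ σ : GQ, A.IsFrobeniusAt σ p →
            Matrix.trace ((ρ σ : GL (Fin 2) Qb) : M2 Qb) - X.a p ∈ Λ.nonunits ∧
            Matrix.det ((ρ σ : GL (Fin 2) Qb) : M2 Qb) - X.e (p : ZMod N) ∈ Λ.nonunits := by
  obtain ⟨B₀, hB₀⟩ := X.geo
  obtain ⟨B₁, hB₁⟩ := exists_bound cheb N X
  refine ⟨B₀ + X.D + 2 + 2 * B₁, B₁.factorial, Nat.factorial_pos _, by omega, ?_⟩
  intro ℓ hℓ hBℓ Λ hΛ
  have hℓD : ¬ ℓ ∣ X.D := fun h => by
    have := Nat.le_of_dvd (Nat.pos_of_ne_zero X.D_ne) h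
    omega
  obtain ⟨ρb, hρb⟩ := exists_isModRep cheb N X.a X.e hℓ (by omega) Λ hΛ (hB₀ ℓ hℓ (by omega) Λ hΛ)
  have hcard := hB₁ ℓ hℓ hℓD Λ hΛ ρb hρb
  have hfin : Finite ρb.range := finite_range_of_level ρb hρb.level
  obtain ⟨ρ₀, hρ₀⟩ := exists_lift Λ hℓ hΛ (G := ρb.range) (by omega) ρb.range.subtype
  have hker : ∀ σ, ρb σ = 1 → (ρ₀.comp ρb.rangeRestrict) σ = 1 := by
    intro σ hσ
    have : ρb.rangeRestrict σ = 1 := Subtype.ext hσ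
    rw [MonoidHom.comp_apply, this, map_one]
  refine ⟨ρ₀.comp ρb.rangeRestrict, level_of_ker ρb _ hρb.level hker,
    unram_of_ker ρb _ hρb.unram hker, ?_, ?_⟩
  · intro g
    have h1 : ρb.rangeRestrict g ^ B₁.factorial = 1 :=
      Subtype.ext (by simpa using pow_factorial_eq_one ρb hcard g)
    have h2 : (ρ₀.comp ρb.rangeRestrict) g ^ B₁.factorial = 1 := by
      rw [MonoidHom.comp_apply, ← map_pow, h1, map_one]
    have := congrArg (fun y : GL (Fin 2) Qb => (y : M2 Qb)) h2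
    simpa using this
  · intro p hp hpS A hA σ hσ
    have hpN : ¬ p ∣ N := Pigeon_not_dvd_of_not_mem_bad hp hℓ hpS
    obtain ⟨⟨ht1, ht2⟩, ⟨hd1, hd2⟩⟩ := hρ₀ (ρb.rangeRestrict σ)
    obtain ⟨hf1, hf2⟩ := hρb.frob p hp hpS A hA σ hσ
    have ha : X.a p ∈ Λ := mem_of_isIntegral_mul hℓ hΛ hℓD (X.int p hp hpN)
    have he : X.e (p : ZMod N) ∈ Λ :=
      (mem_of_pow_eq_one Λ (Nat.totient_pos.mpr (Nat.pos_of_ne_zero (NeZero.ne N)))
        (Pigeon_char_pow X.e hp hpN)).1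
    constructor
    · exact (res_eq_iff Λ ht1 ha).mp (ht2.trans hf1)
    · exact (res_eq_iff Λ hd1 he).mp (hd2.trans hf2)

/-- each `(a p, e p)` is the (trace, determinant) of a matrix of order dividing `n` -/
theorem Pigeon_mem_tdSet (N : ℕ) [NeZero N] (X : ArithData N) {B n : ℕ}
    (hn : 0 < n)
    (h : ∀ ℓ : ℕ, ℓ.Prime → B < ℓ → ∀ Λ : ValuationSubring Qb, Λ.LiesOverPrime ℓ →
      ∃ ρ : GQ →* GL (Fin 2) Qb, GaloisFactorsThroughFiniteLevel ρ ∧ UnramOutside (bad (N * ℓ)) ρ ∧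
        (∀ g, ((ρ g : GL (Fin 2) Qb) : M2 Qb) ^ n = 1) ∧
        ∀ p : ℕ, p.Prime → p ∉ bad (N * ℓ) → ∀ A : ValuationSubring Qb, A.LiesOverPrime p →
          ∀ σ : GQ, A.IsFrobeniusAt σ p →
            Matrix.trace ((ρ σ : GL (Fin 2) Qb) : M2 Qb) - X.a p ∈ Λ.nonunits ∧
            Matrix.det ((ρ σ : GL (Fin 2) Qb) : M2 Qb) - X.e (p : ZMod N) ∈ Λ.nonunits)
    {p : ℕ} (hp : p.Prime) (hpN : ¬ p ∣ N) : (X.a p, X.e (p : ZMod N)) ∈ tdSet n := by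
  classical
  have hfin := tdSet_finite hn
  set Y : Finset Qb := (hfin.toFinset.image fun y => y.1 - X.a p) ∪
    (hfin.toFinset.image fun y => y.2 - X.e (p : ZMod N)) with hY
  obtain ⟨B', hB'⟩ := exists_bound_finset Y
  obtain ⟨ℓ, hℓ1, hℓ⟩ := Nat.exists_infinite_primes (B + B' + p + 1)
  obtain ⟨Λ, hΛ⟩ := Lib.Frobenius.exists_liesOverPrime (K := Qb) ℓ hℓ
  obtain ⟨ρ, -, -, hpow, hfrob⟩ := h ℓ hℓ (by omega) Λ hΛ
  obtain ⟨A, σ, hA, hσ⟩ := Lib.Frobenius.exists_isFrobeniusAt p hp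
  obtain ⟨h1, h2⟩ := hfrob p hp (Pigeon_not_mem_bad hp hℓ hpN (by omega)) A hA σ hσ
  have hmem := td_mem_tdSet _ (hpow σ)
  have e1 := hB' ℓ hℓ (by omega) Λ hΛ _ (by
    rw [hY]
    exact Finset.mem_union_left _ (Finset.mem_image.mpr ⟨_, hfin.mem_toFinset.mpr hmem, rfl⟩)) h1
  have e2 := hB' ℓ hℓ (by omega) Λ hΛ _ (by
    rw [hY]
    exact Finset.mem_union_right _ (Finset.mem_image.mpr ⟨_, hfin.mem_toFinset.mpr hmem, rfl⟩)) h2
  rw [← sub_eq_zero.mp e1, ← sub_eq_zero.mp e2]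
  exact hmem

/-- **Step 4 of Deligne-Serre** -/
theorem exists_isRep (cheb : ChebStatement) (N : ℕ) [NeZero N] (X : ArithData N) :
    ∃ B : ℕ, ∀ ℓ : ℕ, ℓ.Prime → B < ℓ →
      ∃ ρ : GQ →* GL (Fin 2) Qb, IsRep (bad (N * ℓ)) X.a (fun p => X.e (p : ZMod N)) ρ := by
  obtain ⟨B, n, hn, -, h⟩ := Pigeon_exists_lift_rep cheb N X
  obtain ⟨B', hB'⟩ := exists_bound_pairs (tdSet_finite hn)
  refine ⟨B + B', fun ℓ hℓ hBℓ => ?_⟩
  obtain ⟨Λ, hΛ⟩ := Lib.Frobenius.exists_liesOverPrime (K := Qb) ℓ hℓ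
  obtain ⟨ρ, hlev, hunr, hpow, hfrob⟩ := h ℓ hℓ (by omega) Λ hΛ
  refine ⟨ρ, hlev, hunr, ?_⟩
  intro p hp hpS A hA σ hσ
  obtain ⟨h1, h2⟩ := hfrob p hp hpS A hA σ hσ
  have hpN : ¬ p ∣ N := Pigeon_not_dvd_of_not_mem_bad hp hℓ hpS
  have := hB' ℓ hℓ (by omega) Λ hΛ _ (td_mem_tdSet _ (hpow σ)) _
    (Pigeon_mem_tdSet N X hn h hp hpN) h1 h2
  exact ⟨congrArg Prod.fst this, congrArg Prod.snd this⟩

end Fermat.Agent.S48.End
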