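import Fermat.Agent.LP.Gal.Defs

/-!
# S48-END, file `Quad`: (S1) an irreducible module on which every group element satisfies `g² - t(g) g + d(g) = 0` has dimension `≤ 2`
-/

set_option autoImplicit false

namespace Fermat.Agent.S48.End

open Fermat.Agent.LP.Gal (Irr)

variable {k G W : Type*} [Field k] [Group G] [AddCommGroup W] [Module k W]

/-- auxiliary: the graph `Γ`. -/
def Quad_graph (r : G →* Module.End k W) (d : G →* kˣ) :
    Submodule k (Module.End k W × Module.End k W) :=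
  Submodule.span k (Set.range fun g : G => (r g, ((d g : kˣ) : k) • r g⁻¹))

theorem Quad_exists_mem (r : G →* Module.End k W) (d : G →* kˣ) (x : Module.End k W)
    (hx : x ∈ Submodule.span k (Set.range r)) : ∃ x', (x, x') ∈ Quad_graph r d := by
  induction hx using Submodule.span_induction with
  | mem x hx =>
    obtain ⟨g, rfl⟩ := hx
    exact ⟨_, Submodule.subset_span ⟨g, rfl⟩⟩
  | zero => exact ⟨0, (Quad_graph r d).zero_mem⟩
  | add x y _ _ hx hy =>
    obtain ⟨x', hx'⟩ := hx
    obtain ⟨y', hy'⟩ := hy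
    exact ⟨x' + y', (Quad_graph r d).add_mem hx' hy'⟩
  | smul c x _ hx =>
    obtain ⟨x', hx'⟩ := hx
    exact ⟨c • x', (Quad_graph r d).smul_mem c hx'⟩

theorem Quad_gen (r : G →* Module.End k W) (d : G →* kˣ) (t : G → k)
    (h : ∀ g, r g * r g - t g • r g + (d g : k) • (1 : Module.End k W) = 0) (g : G) :
    r g + ((d g : kˣ) : k) • r g⁻¹ = t g • (1 : Module.End k W) := by
  have h1 : r g * r g⁻¹ = 1 := by rw [← map_mul, mul_inv_cancel, map_one]
  have h2 := congrArg (fun z => z * r g⁻¹) (h g)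
  simp only [add_mul, sub_mul, zero_mul, mul_assoc, h1, mul_one, smul_mul_assoc, one_mul] at h2
  rw [← sub_eq_zero, ← h2]
  abel

theorem Quad_add (r : G →* Module.End k W) (d : G →* kˣ) (t : G → k)
    (h : ∀ g, r g * r g - t g • r g + (d g : k) • (1 : Module.End k W) = 0)
    (z : Module.End k W × Module.End k W) (hz : z ∈ Quad_graph r d) :
    ∃ τ : k, z.1 + z.2 = τ • (1 : Module.End k W) := by
  induction hz using Submodule.span_induction with
  | mem z hz =>
    obtain ⟨g, rfl⟩ := hz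
    exact ⟨t g, Quad_gen r d t h g⟩
  | zero => exact ⟨0, by simp⟩
  | add x y _ _ hx hy =>
    obtain ⟨a, ha⟩ := hx
    obtain ⟨b, hb⟩ := hy
    refine ⟨a + b, ?_⟩
    rw [add_smul, ← ha, ← hb, Prod.fst_add, Prod.snd_add]
    abel
  | smul c x _ hx =>
    obtain ⟨a, ha⟩ := hx
    refine ⟨c * a, ?_⟩
    rw [mul_smul, ← ha, Prod.smul_fst, Prod.smul_snd, smul_add]

theorem Quad_bil_gen (r : G →* Module.End k W) (d : G →* kˣ) (t : G → k)
    (h : ∀ g, r g * r g - t g • r g + (d g : k) • (1 : Module.End k W) = 0) (g₁ g₂ : G) :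
    (((d g₁ : kˣ) : k) • r g₁⁻¹) * r g₂ + (((d g₂ : kˣ) : k) • r g₂⁻¹) * r g₁ =
      (((d g₁ : kˣ) : k) * t (g₁⁻¹ * g₂)) • (1 : Module.End k W) := by
  have h1 := Quad_gen r d t h (g₁⁻¹ * g₂)
  have h2 : ((d g₂ : kˣ) : k) = ((d g₁ : kˣ) : k) * ((d (g₁⁻¹ * g₂) : kˣ) : k) := by
    rw [← Units.val_mul, ← map_mul, mul_inv_cancel_left]
  rw [mul_smul, ← h1, smul_add, smul_smul, ← h2, smul_mul_assoc, smul_mul_assoc, ← map_mul,
    ← map_mul, mul_inv_rev, inv_inv]

theorem Quad_bil (r : G →* Module.End k W) (d : G →* kˣ) (t : G → k)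
    (h : ∀ g, r g * r g - t g • r g + (d g : k) • (1 : Module.End k W) = 0)
    (z : Module.End k W × Module.End k W) (hz : z ∈ Quad_graph r d)
    (y : Module.End k W × Module.End k W) (hy : y ∈ Quad_graph r d) :
    ∃ ν : k, z.2 * y.1 + y.2 * z.1 = ν • (1 : Module.End k W) := by
  induction hz using Submodule.span_induction with
  | mem z hz =>
    obtain ⟨g₁, rfl⟩ := hz
    induction hy using Submodule.span_induction with
    | mem y hy =>
      obtain ⟨g₂, rfl⟩ := hy
      exact ⟨_, Quad_bil_gen r d t h g₁ g₂⟩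
    | zero => exact ⟨0, by simp⟩
    | add x y _ _ hx hy =>
      obtain ⟨a, ha⟩ := hx
      obtain ⟨b, hb⟩ := hy
      refine ⟨a + b, ?_⟩
      rw [add_smul, ← ha, ← hb, Prod.fst_add, Prod.snd_add, mul_add, add_mul]
      abel
    | smul c x _ hx =>
      obtain ⟨a, ha⟩ := hx
      refine ⟨c * a, ?_⟩
      rw [mul_smul, ← ha, Prod.smul_fst, Prod.smul_snd, smul_add, mul_smul_comm, smul_mul_assoc c]
  | zero => exact ⟨0, by simp⟩
  | add x x' _ _ hx hx' =>
    obtain ⟨a, ha⟩ := hx
    obtain ⟨b, hb⟩ := hx'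
    refine ⟨a + b, ?_⟩
    rw [add_smul, ← ha, ← hb, Prod.fst_add, Prod.snd_add, mul_add, add_mul]
    abel
  | smul c x _ hx =>
    obtain ⟨a, ha⟩ := hx
    refine ⟨c * a, ?_⟩
    rw [mul_smul, ← ha, Prod.smul_fst, Prod.smul_snd, smul_add, mul_smul_comm, smul_mul_assoc]

/-- [`Γ := span {(r g, d(g) r(g⁻¹))} ⊆ End W × End W`.  For `(x,x') ∈ Γ`: `x + x'` is a scalar (linear condition; on generators `g + d(g) g⁻¹ = t(g)`: multiply the
relation by `r g⁻¹`).  For `(x,x'), (y,y') ∈ Γ`: `x' y + y' x` is a scalar (bilinear condition, double `Submodule.span_induction`; on generators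
`d(g) g⁻¹ h + d(h) h⁻¹ g = d(g) (u + d(u) u⁻¹) = d(g) t(u)`, `u = g⁻¹ h`).  With `y = x`: `2 x' x = ν'`, `x' = τ - x`: `x² - τ x + ν'/2 = 0`.] -/
theorem quad_of_mem_span (h2 : (2 : k) ≠ 0) (r : G →* Module.End k W) (d : G →* kˣ) (t : G → k)
    (h : ∀ g, r g * r g - t g • r g + (d g : k) • (1 : Module.End k W) = 0) :
    ∀ x ∈ Submodule.span k (Set.range r), ∃ τ ν : k, x * x - τ • x + ν • (1 : Module.End k W) = 0 := by
  intro x hx
  obtain ⟨x', hxx'⟩ := Quad_exists_mem r d x hx
  obtain ⟨τ, hτ⟩ := Quad_add r d t h _ hxx'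
  obtain ⟨ν, hν⟩ := Quad_bil r d t h _ hxx' _ hxx'
  simp only at hτ hν
  refine ⟨τ, ν / 2, ?_⟩
  have e1 : x' = τ • (1 : Module.End k W) - x := by rw [← hτ]; abel
  have e2 : (2 : k) • (x' * x) = ν • (1 : Module.End k W) := by rw [← hν, two_smul]
  have e3 : x' * x = (ν / 2) • (1 : Module.End k W) := by
    have : (2 : k)⁻¹ • ((2 : k) • (x' * x)) = (2 : k)⁻¹ • (ν • (1 : Module.End k W)) := by rw [e2]
    rw [smul_smul, smul_smul, inv_mul_cancel₀ h2, one_smul] at this
    rw [this, div_eq_inv_mul]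
  rw [← e3, e1, sub_mul, smul_mul_assoc, one_mul]
  abel

/-- the span of the image of a representation, as a subalgebra.  [`Algebra.adjoin_eq_span`, `Submonoid.closure` of `MonoidHom.mrange`.] -/
theorem adjoin_range_eq_span (r : G →* Module.End k W) :
    Subalgebra.toSubmodule (Algebra.adjoin k (Set.range r)) = Submodule.span k (Set.range r) := by
  rw [Algebra.adjoin_eq_span]
  congr 1
  have h1 : Set.range r = ((MonoidHom.mrange r : Submonoid (Module.End k W)) : Set _) :=
    (MonoidHom.coe_mrange r).symm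
  rw [h1, Submonoid.closure_eq]

/-- **Key lemma.**  `𝒜` a subalgebra of `End W` acting irreducibly, `k` algebraically closed, every element of `𝒜` is killed by a monic quadratic polynomial: `dim W ≤ 2`.
[ROUTE 1 (Burnside): `𝒜 = End W` (Mathlib: `jacobson_density`, `IsSimpleModule.algebraMap_end_bijective_of_isAlgClosed`), and if `dim W ≥ 3` the diagonal operator
with eigenvalues `0, 1, a` (`a ≠ 0, 1`; `k` is infinite) on three independent vectors is not quadratic.
ROUTE 2 (elementary).  TRANS: for `u ≠ 0`, `{x u | x ∈ 𝒜} = W`.  If all `x ∈ 𝒜` are scalars, `dim W ≤ 1`.  Otherwise there is an idempotent `e ∈ 𝒜`, `e ≠ 0, 1`: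
take `x` non scalar, `(x - λ)(x - μ) = 0`; if `λ ≠ μ`, `e = (x - λ)/(μ - λ)`; if `λ = μ`, `n = x - λ ≠ 0`, `n² = 0`, `v` with `n v ≠ 0`, `a ∈ 𝒜` with `a (n v) = v` (TRANS),
`y = a n`: `y v = v`, `y (n v) = 0`; `y² - τ y + ν = 0` evaluated at `n v` and `v` gives `ν = 0`, `τ = 1`: `e = y`.
Then `dim e W = 1`: for `a ∈ 𝒜`, `y = e a e`, and `s ∈ k` which is not an eigenvalue of `y` (finitely many eigenvalues), `z = y + s (1 - e)` is quadratic with root `s` (on `(1-e) W ≠ 0`), `(z - s)(z - s') = 0`,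
on `e W`: `(y - s)(y - s') = 0` with `y - s` injective, so `y = s'` on `e W`.  So for `u, u' ∈ e W`, `u ≠ 0`: `u' = a u = e a e u ∈ k u`.  Same for `1 - e`.] -/
theorem finrank_le_two_of_quad [IsAlgClosed k] [Module.Finite k W]
    (𝒜 : Subalgebra k (Module.End k W))
    (hirr : ∀ U : Submodule k W, (∀ x ∈ 𝒜, ∀ u ∈ U, x u ∈ U) → U = ⊥ ∨ U = ⊤)
    (hq : ∀ x ∈ 𝒜, ∃ τ ν : k, x * x - τ • x + ν • (1 : Module.End k W) = 0) :
    Module.finrank k W ≤ 2 := by
  classical
  by_contra hlt
  have h3 : 3 ≤ Module.finrank k W := by omega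
  have hnt : Nontrivial W := Module.nontrivial_of_finrank_pos (R := k) (by omega)
  obtain ⟨v, hv⟩ := exists_linearIndependent_of_le_finrank h3
  have hsimple : IsSimpleModule 𝒜 W := by
    rw [isSimpleModule_iff]
    refine { eq_bot_or_eq_top := fun U => ?_ }
    rcases hirr (U.restrictScalars k) (fun x hx u hu => U.smul_mem (⟨x, hx⟩ : 𝒜) hu) with h | h
    · left
      exact (Submodule.restrictScalars_eq_bot_iff k 𝒜 W).1 h
    · right
      exact (Submodule.restrictScalars_eq_top_iff k 𝒜 W).1 h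
  -- a `k`-linear map with `v 0 ↦ v 1 ↦ v 2`
  let u : Fin 3 → W := ![v 1, v 2, 0]
  let g : Submodule.span k (Set.range v) →ₗ[k] W := (Finsupp.linearCombination k u).comp hv.repr
  obtain ⟨f0, hf0⟩ := LinearMap.exists_extend g
  have hf : ∀ i, f0 (v i) = u i := by
    intro i
    have hi : v i ∈ Submodule.span k (Set.range v) := Submodule.subset_span ⟨i, rfl⟩
    have e1 : f0 (v i) = g ⟨v i, hi⟩ := by rw [← hf0]; rfl
    rw [e1]
    show Finsupp.linearCombination k u (hv.repr ⟨v i, hi⟩) = u i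
    rw [hv.repr_eq_single i ⟨v i, hi⟩ rfl, Finsupp.linearCombination_single, one_smul]
  let F : Module.End (Module.End 𝒜 W) W :=
    { toFun := f0
      map_add' := f0.map_add
      map_smul' := fun φ w => by
        obtain ⟨c, rfl⟩ := (IsSimpleModule.algebraMap_end_bijective_of_isAlgClosed (A := 𝒜)
          (V := W) k).2 φ
        simp only [Module.End.smul_def, Module.algebraMap_end_apply, map_smul, RingHom.id_apply] }
  obtain ⟨a, ha⟩ := jacobson_density F ({v 0, v 1} : Finset W)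
  have a0 : (a : Module.End k W) (v 0) = v 1 := by
    have := ha (v 0) (by simp)
    have e : F (v 0) = v 1 := hf 0
    rw [e] at this
    exact this.symm
  have a1 : (a : Module.End k W) (v 1) = v 2 := by
    have := ha (v 1) (by simp)
    have e : F (v 1) = v 2 := hf 1
    rw [e] at this
    exact this.symm
  obtain ⟨τ, ν, hτν⟩ := hq a a.2
  have hrel := congrArg (fun z : Module.End k W => z (v 0)) hτν
  simp only [LinearMap.add_apply, LinearMap.sub_apply, Module.End.mul_apply, LinearMap.smul_apply,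
    Module.End.one_apply, LinearMap.zero_apply, a0, a1] at hrel
  have := Fintype.linearIndependent_iff.1 hv ![ν, -τ, 1] (by
    simp only [Fin.sum_univ_three, Matrix.cons_val_zero, Matrix.cons_val_one, Matrix.cons_val]
    rw [← hrel]
    simp only [neg_smul, one_smul]
    abel) 2
  simp at this

/-- **(S1)** -/
theorem finrank_le_two [IsAlgClosed k] [Module.Finite k W] (h2 : (2 : k) ≠ 0)
    (r : G →* Module.End k W) (hirr : Irr r) (d : G →* kˣ) (t : G → k)
    (h : ∀ g, r g * r g - t g • r g + (d g : k) • (1 : Module.End k W) = 0) :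
    Module.finrank k W ≤ 2 := by
  refine finrank_le_two_of_quad (Algebra.adjoin k (Set.range r)) (fun U hU => hirr U fun g x hx =>
    hU _ (Algebra.subset_adjoin ⟨g, rfl⟩) x hx) fun x hx => ?_
  refine quad_of_mem_span h2 r d t h x ?_
  rw [← adjoin_range_eq_span]
  exact hx

end Fermat.Agent.S48.End
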