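import Fermat.Agent.S48.End.Defs

/-!
# S48-END, file `QuadOne`: the case of a line: `ρ = ψ ⊕ d ψ⁻¹`
-/

set_option autoImplicit false

open scoped MatrixGroups

namespace Fermat.Agent.S48.End

variable {k G W : Type*} [Field k] [Group G] [AddCommGroup W] [Module k W]

/-- the diagonal representation attached to two characters -/
noncomputable def diagRep (ψ₁ ψ₂ : G →* kˣ) : G →* GL (Fin 2) k where
  toFun g := Matrix.GeneralLinearGroup.mkOfDetNeZero !![(ψ₁ g : k), 0; 0, (ψ₂ g : k)] (by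
    rw [Matrix.det_fin_two_of]
    simp)
  map_one' := by
    ext i j
    fin_cases i <;> fin_cases j <;> simp [Matrix.GeneralLinearGroup.mkOfDetNeZero]
  map_mul' g h := by
    ext i j
    fin_cases i <;> fin_cases j <;> simp [Matrix.GeneralLinearGroup.mkOfDetNeZero, Matrix.mul_apply, Fin.sum_univ_two]

theorem coe_diagRep (ψ₁ ψ₂ : G →* kˣ) (g : G) :
    ((diagRep ψ₁ ψ₂ g : GL (Fin 2) k) : M2 k) = !![(ψ₁ g : k), 0; 0, (ψ₂ g : k)] := rfl

/-- [every `x` in the span is diagonal, `x = diag(x₁, x₂)`, and `x₁ = x₂` if `ψ₁ = ψ₂`.  `tr (x ρ(h)) = x₁ ψ₁(h) + x₂ ψ₂(h) = 0` for all `h`.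
If `ψ₁ ≠ ψ₂`: linear independence of characters (`linearIndependent_monoidHom`).  If `ψ₁ = ψ₂`: `2 x₁ ψ₁(1) = 0`.] -/
theorem traceND_diagRep (h2 : (2 : k) ≠ 0) (ψ₁ ψ₂ : G →* kˣ) : TraceND (diagRep ψ₁ ψ₂) := by
  intro x hx
  have hdiag : x 0 1 = 0 ∧ x 1 0 = 0 ∧ (ψ₁ = ψ₂ → x 0 0 = x 1 1) := by
    induction hx using Submodule.span_induction with
    | mem y hy =>
      obtain ⟨g, rfl⟩ := hy
      simp only [coe_diagRep]
      refine ⟨by simp, by simp, fun h => by simp [h]⟩
    | zero => simp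
    | add y z _ _ hy hz =>
      refine ⟨by simp [hy.1, hz.1], by simp [hy.2.1, hz.2.1], fun h => ?_⟩
      simp [hy.2.2 h, hz.2.2 h]
    | smul a y _ hy =>
      refine ⟨by simp [hy.1], by simp [hy.2.1], fun h => ?_⟩
      simp [hy.2.2 h]
  intro htr
  have htr' : ∀ h : G, x 0 0 * (ψ₁ h : k) + x 1 1 * (ψ₂ h : k) = 0 := by
    intro h
    have := htr h
    rw [coe_diagRep, Matrix.trace_fin_two, Matrix.mul_apply, Matrix.mul_apply, Fin.sum_univ_two,
      Fin.sum_univ_two] at this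
    simpa using this
  have h1 := htr' 1
  simp only [map_one, Units.val_one, mul_one] at h1
  have hzero : x 0 0 = 0 ∧ x 1 1 = 0 := by
    by_cases hψ : ψ₁ = ψ₂
    · have h3 := hdiag.2.2 hψ
      rw [← h3] at h1
      have h4 : (2 : k) * x 0 0 = 0 := by linear_combination h1
      have h5 : x 0 0 = 0 := (mul_eq_zero.mp h4).resolve_left h2
      exact ⟨h5, by rw [← h3, h5]⟩
    · obtain ⟨g₀, hg₀⟩ : ∃ g₀, ψ₁ g₀ ≠ ψ₂ g₀ := by
        by_contra hcon
        exact hψ (MonoidHom.ext fun g => by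
          by_contra hne
          exact hcon ⟨g, hne⟩)
      have hg₀' : (ψ₂ g₀ : k) - (ψ₁ g₀ : k) ≠ 0 := by
        rw [sub_ne_zero]
        exact fun h => hg₀ (Units.ext h.symm)
      have h3 := htr' g₀
      have h4 : x 1 1 * ((ψ₂ g₀ : k) - (ψ₁ g₀ : k)) = 0 := by
        linear_combination h3 - (ψ₁ g₀ : k) * h1
      have h5 : x 1 1 = 0 := (mul_eq_zero.mp h4).resolve_right hg₀'
      exact ⟨by rw [h5, add_zero] at h1; exact h1, h5⟩
  ext i j
  fin_cases i <;> fin_cases j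
  · exact hzero.1
  · exact hdiag.1
  · exact hdiag.2.1
  · exact hzero.2

theorem QuadOne_eq_smul (hW : Module.finrank k W = 1) (f : Module.End k W) :
    f = LinearMap.det f • (1 : Module.End k W) := by
  obtain ⟨v, -, hspan⟩ := finrank_eq_one_iff'.mp hW
  obtain ⟨c, hc⟩ := hspan (f v)
  have hf : f = c • (1 : Module.End k W) := by
    refine LinearMap.ext fun w => ?_
    obtain ⟨a, rfl⟩ := hspan w
    rw [map_smul, ← hc, LinearMap.smul_apply, Module.End.one_apply, smul_comm]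
  have hdet : LinearMap.det f = c := by
    rw [hf, LinearMap.det_smul, hW, pow_one, map_one, mul_one]
  rw [hdet]
  exact hf

/-- [`W = k w`; `r g w = ψ(g) w`, `ψ : G →* kˣ`; the relation gives `ψ² - t ψ + d = 0`, so `t = ψ + d ψ⁻¹`.  `ρ := diagRep ψ (d * ψ⁻¹)`.] -/
theorem exists_rep_of_finrank_one (h2 : (2 : k) ≠ 0) (hW : Module.finrank k W = 1)
    (r : G →* Module.End k W) (d : G →* kˣ) (t : G → k)
    (h : ∀ g, r g * r g - t g • r g + (d g : k) • (1 : Module.End k W) = 0) :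
    ∃ ρ : G →* GL (Fin 2) k,
      (∀ g, Matrix.trace ((ρ g : GL (Fin 2) k) : M2 k) = t g ∧
        Matrix.det ((ρ g : GL (Fin 2) k) : M2 k) = d g) ∧
      TraceND ρ ∧ ∀ g, r g = 1 → d g = 1 → ρ g = 1 := by
  let ψ : G →* kˣ := ((LinearMap.det : Module.End k W →* k).comp r).toHomUnits
  have hψ : ∀ g, (ψ g : k) = LinearMap.det (r g) := fun g => MonoidHom.coe_toHomUnits _ g
  have hr : ∀ g, r g = (ψ g : k) • (1 : Module.End k W) := by
    intro g
    rw [hψ]
    exact QuadOne_eq_smul hW (r g)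
  have hone : (1 : Module.End k W) ≠ 0 := by
    obtain ⟨v, hv, -⟩ := finrank_eq_one_iff'.mp hW
    intro h0
    apply hv
    have := LinearMap.congr_fun h0 v
    simpa using this
  have hrel : ∀ g, (ψ g : k) * (ψ g : k) - t g * (ψ g : k) + (d g : k) = 0 := by
    intro g
    have h1 := h g
    rw [hr g] at h1
    have h3 : ((ψ g : k) * (ψ g : k) - t g * (ψ g : k) + (d g : k)) • (1 : Module.End k W) = 0 := by
      rw [← h1, add_smul, sub_smul, smul_mul_smul_comm, mul_one, smul_smul]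
    exact (smul_eq_zero.mp h3).resolve_right hone
  refine ⟨diagRep ψ (d * ψ⁻¹), fun g => ⟨?_, ?_⟩, traceND_diagRep h2 _ _, fun g hg hd => ?_⟩
  · rw [coe_diagRep, Matrix.trace_fin_two_of, MonoidHom.mul_apply, MonoidHom.inv_apply,
      Units.val_mul, Units.val_inv_eq_inv_val]
    have h0 : (ψ g : k) ≠ 0 := (ψ g).ne_zero
    field_simp
    linear_combination hrel g
  · rw [coe_diagRep, Matrix.det_fin_two_of, MonoidHom.mul_apply, MonoidHom.inv_apply,
      Units.val_mul, Units.val_inv_eq_inv_val]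
    have h0 : (ψ g : k) ≠ 0 := (ψ g).ne_zero
    field_simp
    ring
  · have h1 : ψ g = 1 := by
      apply Units.ext
      rw [hψ, hg, map_one, Units.val_one]
    apply Units.ext
    rw [coe_diagRep, MonoidHom.mul_apply, MonoidHom.inv_apply, h1, hd]
    ext i j
    fin_cases i <;> fin_cases j <;> simp

end Fermat.Agent.S48.End
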