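import Fermat.Agent.S48.End.Defs
import Fermat.Agent.LP.Gal.Defs

/-!
# S48-END, file `QuadSub`: irreducible subrepresentations
-/

set_option autoImplicit false

namespace Fermat.Agent.S48.End

open Fermat.Agent.LP.Gal (Irr)

variable {k G W : Type*} [Field k] [Group G] [AddCommGroup W] [Module k W]

/-- restriction of a representation to a stable subspace -/
noncomputable def subRep (r : G →* Module.End k W) (U : Submodule k W)
    (hU : ∀ g, ∀ x ∈ U, r g x ∈ U) : G →* Module.End k U where
  toFun g := (r g).restrict (hU g)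
  map_one' := by
    refine LinearMap.ext fun x => Subtype.ext ?_
    simp [LinearMap.restrict_apply]
  map_mul' g h := by
    refine LinearMap.ext fun x => Subtype.ext ?_
    simp [LinearMap.restrict_apply]

@[simp] theorem coe_subRep (r : G →* Module.End k W) (U : Submodule k W)
    (hU : ∀ g, ∀ x ∈ U, r g x ∈ U) (g : G) (x : U) : ((subRep r U hU g x : U) : W) = r g x := rfl

/-- [strong induction on `finrank`: a nonzero stable subspace of minimal dimension; a stable subspace `U'` of `U` maps to a stable subspace `U'.map U.subtype` of `W`.] -/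
theorem exists_irr_sub [Module.Finite k W] [Nontrivial W] (r : G →* Module.End k W) :
    ∃ (U : Submodule k W) (hU : ∀ g, ∀ x ∈ U, r g x ∈ U), U ≠ ⊥ ∧ Irr (subRep r U hU) := by
  classical
  let P : ℕ → Prop := fun n => ∃ U : Submodule k W, (∀ g, ∀ x ∈ U, r g x ∈ U) ∧ U ≠ ⊥ ∧
    Module.finrank k U = n
  have hP : ∃ n, P n := ⟨_, ⊤, fun _ _ _ => Submodule.mem_top, top_ne_bot, rfl⟩
  obtain ⟨U, hU, hU0, hUn⟩ := Nat.find_spec hP
  refine ⟨U, hU, hU0, fun U' hU' => ?_⟩
  by_cases h0 : U' = ⊥
  · exact Or.inl h0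
  right
  have hV : ∀ g, ∀ x ∈ U'.map U.subtype, r g x ∈ U'.map U.subtype := by
    rintro g _ ⟨y, hy, rfl⟩
    exact ⟨subRep r U hU g y, hU' g y hy, rfl⟩
  have hV0 : U'.map U.subtype ≠ ⊥ := by
    intro h
    exact h0 (Submodule.map_injective_of_injective U.injective_subtype
      (h.trans (Submodule.map_bot _).symm))
  have hmin : Nat.find hP ≤ Module.finrank k (U'.map U.subtype) :=
    Nat.find_min' hP ⟨_, hV, hV0, rfl⟩
  rw [Submodule.finrank_map_subtype_eq, ← hUn] at hmin
  exact Submodule.eq_top_of_finrank_eq (le_antisymm (Submodule.finrank_le _) hmin)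

theorem subRep_quad (r : G →* Module.End k W) (U : Submodule k W) (hU : ∀ g, ∀ x ∈ U, r g x ∈ U)
    {g : G} {t d : k} (h : r g * r g - t • r g + d • (1 : Module.End k W) = 0) :
    subRep r U hU g * subRep r U hU g - t • subRep r U hU g + d • (1 : Module.End k U) = 0 := by
  refine LinearMap.ext fun x => Subtype.ext ?_
  have h1 := LinearMap.congr_fun h (x : W)
  simpa using h1

theorem subRep_eq_one (r : G →* Module.End k W) (U : Submodule k W) (hU : ∀ g, ∀ x ∈ U, r g x ∈ U)
    {g : G} (h : r g = 1) : subRep r U hU g = 1 := by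
  refine LinearMap.ext fun x => Subtype.ext ?_
  rw [coe_subRep, h]
  rfl

end Fermat.Agent.S48.End
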