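import Fermat.Agent.S48.End.Defs
import Fermat.Agent.LP.Gal.DensityB

/-!
# S48-END, file `QuadTwo`: the case of an irreducible plane
-/

set_option autoImplicit false

open scoped MatrixGroups

namespace Fermat.Agent.S48.End

open Fermat.Agent.LP.Gal (Irr)

variable {k G W : Type*} [Field k] [Group G] [AddCommGroup W] [Module k W]

/-- [non scalar `r g`: `LP.Gal.trace_det_of_not_scalar`.  Scalar `r g = c`: take `g₀` non scalar (`LP.Gal.exists_not_scalar`); `g g₀` is non scalar, `det (r (g g₀)) = d(g) d(g₀) = c² d(g₀)`,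
so `d g = c²`, and `c² - t c + c² = 0` gives `t = 2 c`.] -/
theorem trace_det_of_quad [Module.Finite k W] (hW : Module.finrank k W = 2) (r : G →* Module.End k W)
    (hirr : Irr r) (d : G →* kˣ) (t : G → k)
    (h : ∀ g, r g * r g - t g • r g + (d g : k) • (1 : Module.End k W) = 0) (g : G) :
    LinearMap.trace k W (r g) = t g ∧ LinearMap.det (r g) = d g := by
  by_cases hs : ∃ s : k, r g = s • 1
  · obtain ⟨c, hc⟩ := hs
    have : Nontrivial W := Module.nontrivial_of_finrank_pos (R := k) (by omega)
    have hc0 : c ≠ 0 := by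
      rintro rfl
      have h1 : r g * r g⁻¹ = 1 := by rw [← map_mul, mul_inv_cancel, map_one]
      rw [hc, zero_smul, zero_mul] at h1
      exact zero_ne_one h1
    obtain ⟨g₀, hg₀⟩ := LP.Gal.exists_not_scalar hW r hirr
    have hns : ¬ ∃ s : k, r (g * g₀) = s • 1 := by
      rintro ⟨s, hs⟩
      apply hg₀
      refine ⟨c⁻¹ * s, ?_⟩
      rw [map_mul, hc, smul_mul_assoc, one_mul] at hs
      rw [mul_smul, ← hs, smul_smul, inv_mul_cancel₀ hc0, one_smul]
    have h1 := (LP.Gal.trace_det_of_not_scalar hW _ _ _ (h (g * g₀)) hns).2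
    have h2 := (LP.Gal.trace_det_of_not_scalar hW _ _ _ (h g₀) hg₀).2
    rw [map_mul, map_mul, hc, LP.Gal.det_smul_one_plane hW, h2, map_mul, Units.val_mul] at h1
    have hd : (d g : k) = c ^ 2 := (mul_right_cancel₀ (d g₀).ne_zero h1).symm
    have h3 := h g
    rw [hc, hd] at h3
    have h4 : (c * c - t g * c + c ^ 2) • (1 : Module.End k W) = 0 := by
      rw [← h3, add_smul, sub_smul, mul_smul, mul_smul, smul_mul_assoc, one_mul]
    have h5 : c * c - t g * c + c ^ 2 = 0 := by
      rcases smul_eq_zero.1 h4 with h5 | h5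
      · exact h5
      · exact absurd h5 one_ne_zero
    have h6 : t g = 2 * c := by
      have : c * (2 * c - t g) = 0 := by linear_combination h5
      rcases mul_eq_zero.1 this with h7 | h7
      · exact absurd h7 hc0
      · linear_combination -h7
    exact ⟨by rw [hc, LP.Gal.trace_smul_one_plane hW, h6],
      by rw [hc, LP.Gal.det_smul_one_plane hW, hd]⟩
  · exact LP.Gal.trace_det_of_not_scalar hW _ _ _ (h g) hs

/-- Cayley-Hamilton for `2 × 2` matrices. -/
theorem QuadTwo_cayley (M : M2 k) : M * M = M.trace • M - M.det • (1 : M2 k) := by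
  ext i j
  fin_cases i <;> fin_cases j <;>
    simp [Matrix.mul_apply, Fin.sum_univ_two, Matrix.trace_fin_two, Matrix.det_fin_two] <;> ring

/-- a `2 × 2` matrix with `tr M = tr M² = 0` has square zero (characteristic `≠ 2`). -/
theorem QuadTwo_sq_eq_zero (h2 : (2 : k) ≠ 0) (M : M2 k) (h1 : M.trace = 0)
    (h1' : (M * M).trace = 0) : M * M = 0 := by
  have h := QuadTwo_cayley M
  rw [h1, zero_smul, zero_sub] at h
  have h3 := congrArg Matrix.trace h
  rw [h1', Matrix.trace_neg, Matrix.trace_smul, Matrix.trace_one, Fintype.card_fin] at h3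
  have h4 : M.det = 0 := by
    have : (2 : k) * M.det = 0 := by
      have h5 : M.det * 2 = 0 := by simpa using h3.symm
      rw [mul_comm]; exact h5
    exact (mul_eq_zero.1 this).resolve_left h2
  rw [h, h4, zero_smul, neg_zero]

/-- the span of the image of a representation is closed under multiplication. -/
theorem QuadTwo_mul_mem (r : G →* Module.End k W) {a b : Module.End k W}
    (ha : a ∈ Submodule.span k (Set.range r)) (hb : b ∈ Submodule.span k (Set.range r)) :
    a * b ∈ Submodule.span k (Set.range r) := by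
  have h := Submodule.mul_mem_mul ha hb
  rw [Submodule.span_mul_span] at h
  refine Submodule.span_mono ?_ h
  rintro _ ⟨_, ⟨g, rfl⟩, _, ⟨g', rfl⟩, rfl⟩
  exact ⟨g * g', map_mul r g g'⟩

/-- the trace form is nondegenerate on the span of an irreducible plane representation.
[Let `x ≠ 0` in the span `𝒜` with `tr (x y) = 0` for all `y ∈ 𝒜` (linearity).  `v` with `x v ≠ 0`.  `{a (x v) | a ∈ 𝒜}` is a nonzero stable subspace, so there is `a ∈ 𝒜` with `a (x v) = v`.
`y := a x ∈ 𝒜` satisfies `y v = v`, `tr y = tr (x a) = 0`, `tr (y y) = tr (x (a x a)) = 0`; for a `2 × 2` matrix `2 det y = (tr y)² - tr y² = 0`, so by Cayley-Hamilton `y² = 0`, contradiction with `y v = v ≠ 0`.] -/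
theorem trace_nd_of_irr [Module.Finite k W] (h2 : (2 : k) ≠ 0) (hW : Module.finrank k W = 2)
    (r : G →* Module.End k W) (hirr : Irr r) :
    ∀ x ∈ Submodule.span k (Set.range r), (∀ g, LinearMap.trace k W (x * r g) = 0) → x = 0 := by
  intro x hx htr
  by_contra hx0
  set 𝒜 := Submodule.span k (Set.range r) with h𝒜
  -- linearity
  have htr' : ∀ y ∈ 𝒜, LinearMap.trace k W (x * y) = 0 := by
    intro y hy
    induction hy using Submodule.span_induction with
    | mem y hy => obtain ⟨g, rfl⟩ := hy; exact htr g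
    | zero => rw [mul_zero, map_zero]
    | add y z _ _ hy hz => rw [mul_add, map_add, hy, hz, add_zero]
    | smul c y _ hy => rw [mul_smul_comm, map_smul, hy, smul_zero]
  obtain ⟨v, hv⟩ : ∃ v, x v ≠ 0 := by
    by_contra hcon
    push Not at hcon
    exact hx0 (LinearMap.ext hcon)
  -- the orbit of `x v`
  let U : Submodule k W := 𝒜.map (LinearMap.applyₗ (x v) : Module.End k W →ₗ[k] W)
  have hU : ∀ g : G, ∀ w ∈ U, r g w ∈ U := by
    rintro g _ ⟨a, ha, rfl⟩
    exact ⟨r g * a, QuadTwo_mul_mem r (Submodule.subset_span ⟨g, rfl⟩) ha, rfl⟩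
  have hUne : U ≠ ⊥ := by
    intro h0
    have : x v ∈ U := ⟨r 1, Submodule.subset_span ⟨1, rfl⟩, by simp⟩
    rw [h0, Submodule.mem_bot] at this
    exact hv this
  have hUtop : U = ⊤ := (hirr U hU).resolve_left hUne
  obtain ⟨a, ha, hav⟩ : v ∈ U := by rw [hUtop]; exact Submodule.mem_top
  have hav' : a (x v) = v := hav
  have hv0 : v ≠ 0 := by
    rintro rfl
    exact hv (map_zero x)
  set y : Module.End k W := a * x with hy
  have hyv : y v = v := hav'
  have ht1 : LinearMap.trace k W y = 0 := by
    rw [hy, LinearMap.trace_mul_comm]; exact htr' a ha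
  have ht2 : LinearMap.trace k W (y * y) = 0 := by
    have e : y * y = a * (x * (a * x)) := by rw [hy]; simp only [mul_assoc]
    rw [e, LinearMap.trace_mul_comm, mul_assoc]
    exact htr' _ (QuadTwo_mul_mem r (QuadTwo_mul_mem r ha hx) ha)
  let b : Module.Basis (Fin 2) k W := Module.finBasisOfFinrankEq k W hW
  let e := LinearMap.toMatrixAlgEquiv b
  have hM1 : (e y).trace = 0 := by
    rw [← ht1, LinearMap.trace_eq_matrix_trace k b y]; rfl
  have hM2 : (e y * e y).trace = 0 := by
    rw [← map_mul, ← ht2, LinearMap.trace_eq_matrix_trace k b (y * y)]; rfl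
  have hsq := QuadTwo_sq_eq_zero h2 (e y) hM1 hM2
  rw [← map_mul] at hsq
  have hyy : y * y = 0 := e.injective (by rw [hsq, map_zero])
  have := congrArg (fun f : Module.End k W => f v) hyy
  simp only [Module.End.mul_apply, hyv, LinearMap.zero_apply] at this
  exact hv0 this

/-- [basis `b := Module.finBasisOfFinrankEq k W hW`, `ρ g :=` the matrix of `r g` (`LinearMap.toMatrixAlgEquiv b`, a unit since `r g * r g⁻¹ = 1`);
`LinearMap.trace_eq_matrix_trace`, `LinearMap.det_toMatrix`.] -/
theorem exists_rep_of_finrank_two [Module.Finite k W] (h2 : (2 : k) ≠ 0)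
    (hW : Module.finrank k W = 2) (r : G →* Module.End k W) (hirr : Irr r) (d : G →* kˣ) (t : G → k)
    (h : ∀ g, r g * r g - t g • r g + (d g : k) • (1 : Module.End k W) = 0) :
    ∃ ρ : G →* GL (Fin 2) k,
      (∀ g, Matrix.trace ((ρ g : GL (Fin 2) k) : M2 k) = t g ∧
        Matrix.det ((ρ g : GL (Fin 2) k) : M2 k) = d g) ∧
      TraceND ρ ∧ ∀ g, r g = 1 → d g = 1 → ρ g = 1 := by
  let b : Module.Basis (Fin 2) k W := Module.finBasisOfFinrankEq k W hW
  let e := LinearMap.toMatrixAlgEquiv b
  let ρ : G →* GL (Fin 2) k := (Units.map (e : Module.End k W →* M2 k)).comp r.toHomUnits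
  have hρ : ∀ g, ((ρ g : GL (Fin 2) k) : M2 k) = e (r g) := fun g => rfl
  have htrace : ∀ f : Module.End k W, (e f).trace = LinearMap.trace k W f := by
    intro f
    rw [LinearMap.trace_eq_matrix_trace k b f]; rfl
  refine ⟨ρ, ?_, ?_, ?_⟩
  · intro g
    obtain ⟨h1, h3⟩ := trace_det_of_quad hW r hirr d t h g
    rw [hρ, htrace, h1, ← h3]
    exact ⟨rfl, LinearMap.det_toMatrix b (r g)⟩
  · intro x hx htr
    have hx' : e.symm x ∈ Submodule.span k (Set.range r) := by
      clear htr
      induction hx using Submodule.span_induction with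
      | mem y hy =>
        obtain ⟨g, rfl⟩ := hy
        refine Submodule.subset_span ⟨g, ?_⟩
        show r g = e.symm ((ρ g : GL (Fin 2) k) : M2 k)
        rw [hρ, AlgEquiv.symm_apply_apply]
      | zero => rw [map_zero]; exact Submodule.zero_mem _
      | add y z _ _ hy hz => rw [map_add]; exact Submodule.add_mem _ hy hz
      | smul c y _ hy => rw [map_smul]; exact Submodule.smul_mem _ c hy
    have h0 := trace_nd_of_irr h2 hW r hirr (e.symm x) hx' (by
      intro g
      rw [← htrace, map_mul, AlgEquiv.apply_symm_apply, ← hρ]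
      exact htr g)
    have := congrArg e h0
    rwa [AlgEquiv.apply_symm_apply, map_zero] at this
  · intro g hg _
    apply Units.ext
    rw [hρ, hg, map_one]
    rfl

end Fermat.Agent.S48.End
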