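import Fermat.Agent.S48.End.Quad
import Fermat.Agent.S48.End.QuadSub
import Fermat.Agent.S48.End.QuadOne
import Fermat.Agent.S48.End.QuadTwo

/-!
# S48-END, file `QuadRep`: (S1) from a module with quadratic relations to a semisimple representation `G → GL₂(k)`
-/

set_option autoImplicit false

open scoped MatrixGroups

namespace Fermat.Agent.S48.End

open Fermat.Agent.LP.Gal (Irr)

variable {k G W : Type*} [Field k] [Group G] [AddCommGroup W] [Module k W]

/-- **(S1)** -/
theorem exists_rep_of_quad [IsAlgClosed k] [Module.Finite k W] [Nontrivial W] (h2 : (2 : k) ≠ 0)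
    (r : G →* Module.End k W) (d : G →* kˣ) (t : G → k)
    (h : ∀ g, r g * r g - t g • r g + (d g : k) • (1 : Module.End k W) = 0) :
    ∃ ρ : G →* GL (Fin 2) k,
      (∀ g, Matrix.trace ((ρ g : GL (Fin 2) k) : M2 k) = t g ∧
        Matrix.det ((ρ g : GL (Fin 2) k) : M2 k) = d g) ∧
      TraceND ρ ∧ ∀ g, r g = 1 → d g = 1 → ρ g = 1 := by
  obtain ⟨U, hU, hU0, hirr⟩ := exists_irr_sub r
  have hq : ∀ g, subRep r U hU g * subRep r U hU g - t g • subRep r U hU g +
      (d g : k) • (1 : Module.End k U) = 0 := fun g => subRep_quad r U hU (h g)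
  have hle : Module.finrank k U ≤ 2 := finrank_le_two h2 (subRep r U hU) hirr d t hq
  have hpos : 0 < Module.finrank k U := by
    rw [Nat.pos_iff_ne_zero, Ne, Submodule.finrank_eq_zero]
    exact hU0
  have hcases : Module.finrank k U = 1 ∨ Module.finrank k U = 2 := by omega
  rcases hcases with h1 | h1
  · obtain ⟨ρ, hρ1, hρ2, hρ3⟩ := exists_rep_of_finrank_one h2 h1 (subRep r U hU) d t hq
    exact ⟨ρ, hρ1, hρ2, fun g hg hd => hρ3 g (subRep_eq_one r U hU hg) hd⟩
  · obtain ⟨ρ, hρ1, hρ2, hρ3⟩ := exists_rep_of_finrank_two h2 h1 (subRep r U hU) hirr d t hq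
    exact ⟨ρ, hρ1, hρ2, fun g hg hd => hρ3 g (subRep_eq_one r U hU hg) hd⟩

end Fermat.Agent.S48.End
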