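import Fermat.Agent.S48.End.Pigeon

/-!
# S48-END, file `Two`: comparing the representations attached to two primes `ℓ ≠ ℓ'`
-/

set_option autoImplicit false

open scoped MatrixGroups

namespace Fermat.Agent.S48.End

theorem Two_trace_conj {G : Type*} [Group G] (ρ : G →* GL (Fin 2) Qb) (h g : G) :
    Matrix.trace ((ρ (h * g * h⁻¹) : GL (Fin 2) Qb) : M2 Qb) =
      Matrix.trace ((ρ g : GL (Fin 2) Qb) : M2 Qb) := by
  have h1 : ((ρ (h * g * h⁻¹) : GL (Fin 2) Qb) : M2 Qb) =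
      ((ρ h : GL (Fin 2) Qb) : M2 Qb) * ((ρ g : GL (Fin 2) Qb) : M2 Qb) *
        ((ρ h⁻¹ : GL (Fin 2) Qb) : M2 Qb) := by
    rw [map_mul, map_mul]; rfl
  have h2 : ((ρ h⁻¹ : GL (Fin 2) Qb) : M2 Qb) * ((ρ h : GL (Fin 2) Qb) : M2 Qb) = 1 := by
    rw [← Units.val_mul, ← map_mul, inv_mul_cancel, map_one, Units.val_one]
  rw [h1, Matrix.trace_mul_comm, ← Matrix.mul_assoc, h2, Matrix.one_mul]

theorem Two_det_conj {G : Type*} [Group G] (ρ : G →* GL (Fin 2) Qb) (h g : G) :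
    Matrix.det ((ρ (h * g * h⁻¹) : GL (Fin 2) Qb) : M2 Qb) =
      Matrix.det ((ρ g : GL (Fin 2) Qb) : M2 Qb) := by
  have h1 : ((ρ (h * g * h⁻¹) : GL (Fin 2) Qb) : M2 Qb) =
      ((ρ h : GL (Fin 2) Qb) : M2 Qb) * ((ρ g : GL (Fin 2) Qb) : M2 Qb) *
        ((ρ h⁻¹ : GL (Fin 2) Qb) : M2 Qb) := by
    rw [map_mul, map_mul]; rfl
  have h2 : ((ρ h⁻¹ : GL (Fin 2) Qb) : M2 Qb) * ((ρ h : GL (Fin 2) Qb) : M2 Qb) = 1 := by
    rw [← Units.val_mul, ← map_mul, inv_mul_cancel, map_one, Units.val_one]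
  have h3 := congrArg Matrix.det h2
  rw [Matrix.det_mul, Matrix.det_one] at h3
  rw [h1, Matrix.det_mul, Matrix.det_mul]
  linear_combination (Matrix.det ((ρ g : GL (Fin 2) Qb) : M2 Qb)) * h3

/-- trace and determinant of `ρ g` from those of `ρ g⁻¹` -/
theorem Two_td_inv {G : Type*} [Group G] (ρ ρ' : G →* GL (Fin 2) Qb) (g : G)
    (ht : Matrix.trace ((ρ g⁻¹ : GL (Fin 2) Qb) : M2 Qb) =
      Matrix.trace ((ρ' g⁻¹ : GL (Fin 2) Qb) : M2 Qb))
    (hd : Matrix.det ((ρ g⁻¹ : GL (Fin 2) Qb) : M2 Qb) =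
      Matrix.det ((ρ' g⁻¹ : GL (Fin 2) Qb) : M2 Qb)) :
    Matrix.trace ((ρ g : GL (Fin 2) Qb) : M2 Qb) = Matrix.trace ((ρ' g : GL (Fin 2) Qb) : M2 Qb) ∧
    Matrix.det ((ρ g : GL (Fin 2) Qb) : M2 Qb) = Matrix.det ((ρ' g : GL (Fin 2) Qb) : M2 Qb) := by
  have key : ∀ r : G →* GL (Fin 2) Qb,
      ((r g⁻¹ : GL (Fin 2) Qb) : M2 Qb) * ((r g : GL (Fin 2) Qb) : M2 Qb) = 1 := by
    intro r
    rw [← Units.val_mul, ← map_mul, inv_mul_cancel, map_one, Units.val_one]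
  have t1 := trace_inv_mul_det _ _ (key ρ)
  have t2 := trace_inv_mul_det _ _ (key ρ')
  have d1 := congrArg Matrix.det (key ρ)
  have d2 := congrArg Matrix.det (key ρ')
  rw [Matrix.det_mul, Matrix.det_one] at d1 d2
  have hne : Matrix.det ((ρ' g⁻¹ : GL (Fin 2) Qb) : M2 Qb) ≠ 0 := by
    intro h0
    rw [h0, zero_mul] at d2
    exact zero_ne_one d2
  rw [hd] at t1 d1
  constructor
  · apply mul_right_cancel₀ hne
    rw [t1, t2, ht]
  · apply mul_left_cancel₀ hne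
    rw [d1, d2]

/-- two representations of finite level with the same Frobenius traces and determinants almost everywhere have the same traces and determinants -/
theorem td_eq_of_frob (cheb : ChebStatement) (ρ ρ' : GQ →* GL (Fin 2) Qb)
    (hlev : GaloisFactorsThroughFiniteLevel ρ) (hlev' : GaloisFactorsThroughFiniteLevel ρ')
    {S S' : Finset ℕ} {t d : ℕ → Qb} (h : FrobTD S t d ρ) (h' : FrobTD S' t d ρ') (g : GQ) :
    Matrix.trace ((ρ g : GL (Fin 2) Qb) : M2 Qb) = Matrix.trace ((ρ' g : GL (Fin 2) Qb) : M2 Qb) ∧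
    Matrix.det ((ρ g : GL (Fin 2) Qb) : M2 Qb) = Matrix.det ((ρ' g : GL (Fin 2) Qb) : M2 Qb) := by
  classical
  obtain ⟨p, A, σ, k, hp, hpS, hA, hσ, hr⟩ :=
    exists_frob_conj cheb (ρ.prod ρ') (level_prod ρ ρ' hlev hlev') (S ∪ S') g
  rw [Finset.mem_union, not_or] at hpS
  obtain ⟨a1, a2⟩ := h p hp hpS.1 A hA σ hσ
  obtain ⟨b1, b2⟩ := h' p hp hpS.2 A hA σ hσ
  rcases hr with hr | hr
  · have e1 : ρ σ = ρ (k * g * k⁻¹) := congrArg Prod.fst hr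
    have e2 : ρ' σ = ρ' (k * g * k⁻¹) := congrArg Prod.snd hr
    rw [e1, Two_trace_conj] at a1
    rw [e1, Two_det_conj] at a2
    rw [e2, Two_trace_conj] at b1
    rw [e2, Two_det_conj] at b2
    exact ⟨a1.trans b1.symm, a2.trans b2.symm⟩
  · have e1 : ρ σ = ρ (k * g⁻¹ * k⁻¹) := congrArg Prod.fst hr
    have e2 : ρ' σ = ρ' (k * g⁻¹ * k⁻¹) := congrArg Prod.snd hr
    rw [e1, Two_trace_conj] at a1
    rw [e1, Two_det_conj] at a2
    rw [e2, Two_trace_conj] at b1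
    rw [e2, Two_det_conj] at b2
    exact Two_td_inv ρ ρ' g (a1.trans b1.symm) (a2.trans b2.symm)

/-- **Step 5 of Deligne-Serre**: the representation is unramified outside `N`. -/
theorem exists_isRep_all (cheb : ChebStatement) (N : ℕ) [NeZero N] (X : ArithData N) :
    ∃ ρ : GQ →* GL (Fin 2) Qb, IsRep (bad N) X.a (fun p => X.e (p : ZMod N)) ρ := by
  obtain ⟨B, hB⟩ := exists_isRep cheb N X
  obtain ⟨ℓ, hℓ1, hℓ⟩ := Nat.exists_infinite_primes (B + 1)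
  obtain ⟨ℓ', hℓ1', hℓ'⟩ := Nat.exists_infinite_primes (ℓ + 1)
  obtain ⟨ρ, hρ⟩ := hB ℓ hℓ (by omega)
  obtain ⟨ρ', hρ'⟩ := hB ℓ' hℓ' (by omega)
  have htd := td_eq_of_frob cheb ρ ρ' hρ.level hρ'.level hρ.frob hρ'.frob
  have hfin : Finite ρ.range := finite_range_of_level ρ hρ.level
  have hker : ∀ g, ρ' g = 1 → ρ g = 1 := by
    intro g hg
    obtain ⟨h1, h2⟩ := htd g
    rw [hg] at h1 h2
    have h3 := pow_factorial_eq_one ρ le_rfl g
    have h4 : ((ρ g : GL (Fin 2) Qb) : M2 Qb) ^ (Nat.card ρ.range).factorial = 1 := by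
      have := congrArg (fun y : GL (Fin 2) Qb => (y : M2 Qb)) h3
      simpa using this
    have h5 := eq_one_of_td (Nat.factorial_pos _) _ h4 (by rw [h1]; simp [Matrix.trace_fin_two])
      (by rw [h2]; simp)
    exact Units.ext h5
  have hnb : ∀ p : ℕ, p.Prime → p ∉ bad N → ¬ p ∣ N := fun p hp h h1 =>
    h (Nat.mem_primeFactors.mpr ⟨hp, h1, NeZero.ne N⟩)
  refine ⟨ρ, hρ.level, ?_, ?_⟩
  · intro p hp hpS A hA σ hσ
    by_cases hpℓ : p = ℓ
    · exact hker σ (hρ'.unram p hp (Pigeon_not_mem_bad hp hℓ' (hnb p hp hpS) (by omega)) A hA σ hσ)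
    · exact hρ.unram p hp (Pigeon_not_mem_bad hp hℓ (hnb p hp hpS) hpℓ) A hA σ hσ
  · intro p hp hpS A hA σ hσ
    by_cases hpℓ : p = ℓ
    · obtain ⟨h1, h2⟩ := htd σ
      rw [h1, h2]
      exact hρ'.frob p hp (Pigeon_not_mem_bad hp hℓ' (hnb p hp hpS) (by omega)) A hA σ hσ
    · exact hρ.frob p hp (Pigeon_not_mem_bad hp hℓ (hnb p hp hpS) hpℓ) A hA σ hσ

end Fermat.Agent.S48.End
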